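/-
MAZ F-D1 (helper18), U1: basic calculus of the Weierstrass `℘`-function on top of Mathlib's
`Mathlib/Analysis/SpecialFunctions/Elliptic/Weierstrass.lean`:
`HasDerivAt` forms, the second derivative `℘'' = 6 ℘² - g₂/2`, and the behaviour at lattice points.
Imports Mathlib only.
-/
import Mathlib

set_option autoImplicit false

open Filter Topology
open scoped PeriodPair

namespace Fermat.Agent.MAZ.Unif18

open PeriodPair

variable (L : PeriodPair)

theorem hasDerivAt_wp {z : ℂ} (hz : z ∉ L.lattice) : HasDerivAt ℘[L] (℘'[L] z) z := by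
  have h := (L.analyticOnNhd_weierstrassP z hz).differentiableAt.hasDerivAt
  rwa [L.deriv_weierstrassP] at h

lemma isOpen_compl_lattice : IsOpen ((L.lattice : Set ℂ)ᶜ) :=
  L.isClosed_lattice.isOpen_compl

lemma countable_lattice : (L.lattice : Set ℂ).Countable := by
  have : Countable L.lattice := Countable.of_equiv _ L.latticeEquivProd.toEquiv.symm
  exact Set.countable_coe_iff.mp this

lemma isPreconnected_compl_lattice : IsPreconnected ((L.lattice : Set ℂ)ᶜ) :=
  ((countable_lattice L).isConnected_compl_of_one_lt_rank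
    (by simp only [Complex.rank_real_complex, Nat.one_lt_ofNat])).isPreconnected

/-- `℘[L] z = ℘[L - l] z + 1/(z - l)²` for a lattice point `l`. -/
lemma wp_eq_except_add (l : L.lattice) (z : ℂ) :
    ℘[L] z = ℘[L - (l : ℂ)] z + 1 / (z - l) ^ 2 - 1 / (l : ℂ) ^ 2 := by
  have h := L.weierstrassPExcept_def l z
  rw [h]; ring

lemma eventually_notMem_lattice (l : ℂ) : ∀ᶠ z in 𝓝[≠] l, z ∉ L.lattice := by
  have h := L.compl_lattice_sdiff_singleton_mem_nhds l
  filter_upwards [mem_nhdsWithin_of_mem_nhds h, self_mem_nhdsWithin] with z hz hz0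
  intro hzL
  exact hz ⟨hzL, hz0⟩

lemma tendsto_inv_sq_sub (l : ℂ) :
    Tendsto (fun z : ℂ => ‖1 / (z - l) ^ 2‖) (𝓝[≠] l) atTop := by
  have h1 : Tendsto (fun z : ℂ => (z - l) ^ 2) (𝓝[≠] l) (𝓝[≠] 0) := by
    rw [tendsto_nhdsWithin_iff]
    constructor
    · have : ContinuousAt (fun z : ℂ => (z - l) ^ 2) l := by fun_prop
      have h := this.tendsto
      simp only [sub_self, ne_eq, OfNat.ofNat_ne_zero, not_false_eq_true, zero_pow] at h
      exact h.mono_left nhdsWithin_le_nhds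
    · filter_upwards [self_mem_nhdsWithin] with z hz
      exact pow_ne_zero 2 (sub_ne_zero.mpr hz)
  have h2 := (tendsto_inv₀_nhdsNE_zero (α := ℂ)).comp h1
  rw [← tendsto_norm_atTop_iff_cobounded] at h2
  refine h2.congr fun z => ?_
  simp

theorem tendsto_wp_cobounded {l : ℂ} (hl : l ∈ L.lattice) :
    Tendsto ℘[L] (𝓝[≠] l) (Bornology.cobounded ℂ) := by
  rw [← tendsto_norm_atTop_iff_cobounded]
  set b : ℂ → ℂ := fun z => ℘[L - l] z - 1 / l ^ 2 with hb
  have hcont : ContinuousAt b l :=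
    ((L.analyticAt_weierstrassPExcept l).continuousAt).sub continuousAt_const
  have hbdd : ∀ᶠ z in 𝓝[≠] l, ‖b z‖ ≤ ‖b l‖ + 1 := by
    have : ∀ᶠ z in 𝓝 l, ‖b z‖ < ‖b l‖ + 1 :=
      hcont.norm.eventually_lt continuousAt_const (by simp)
    exact (eventually_nhdsWithin_of_eventually_nhds this).mono fun z hz => hz.le
  have key : ∀ z, ℘[L] z = b z + 1 / (z - l) ^ 2 := by
    intro z
    have h := L.weierstrassPExcept_def ⟨l, hl⟩ z
    simp only [hb]
    rw [h]; ring
  refine tendsto_atTop_mono' _ ?_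
    (tendsto_atTop_add_const_right _ (-(‖b l‖ + 1)) (tendsto_inv_sq_sub l))
  filter_upwards [hbdd] with z hz
  rw [key]
  have := norm_sub_norm_le (1 / (z - l) ^ 2) (-(b z))
  rw [norm_neg, sub_neg_eq_add, add_comm (1 / (z - l) ^ 2)] at this
  linarith

/-- `℘'` does not vanish identically off the lattice. -/
lemma exists_dwp_ne_zero : ∃ z, z ∉ L.lattice ∧ ℘'[L] z ≠ 0 := by
  by_contra hcon
  push Not at hcon
  -- then `℘` is constant off the lattice
  have hconst : ∀ x ∈ (L.lattice : Set ℂ)ᶜ, ∀ y ∈ (L.lattice : Set ℂ)ᶜ, ℘[L] x = ℘[L] y := by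
    intro x hx y hy
    refine (isOpen_compl_lattice L).is_const_of_deriv_eq_zero (isPreconnected_compl_lattice L)
      L.differentiableOn_weierstrassP ?_ hx hy
    intro w hw
    rw [L.deriv_weierstrassP]
    exact hcon w hw
  have hz0 : L.ω₁ / 2 ∉ L.lattice := L.ω₁_div_two_notMem_lattice
  have h1 : Tendsto ℘[L] (𝓝[≠] (0 : ℂ)) (𝓝 (℘[L] (L.ω₁ / 2))) := by
    refine tendsto_const_nhds.congr' ?_
    filter_upwards [eventually_notMem_lattice L 0] with z hz
    exact hconst _ hz0 _ hz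
  have h2 := tendsto_wp_cobounded L (l := 0) (zero_mem _)
  rw [← tendsto_norm_atTop_iff_cobounded] at h2
  have h3 := h1.norm
  exact not_tendsto_atTop_of_tendsto_nhds h3 h2

theorem hasDerivAt_dwp {z : ℂ} (hz : z ∉ L.lattice) :
    HasDerivAt ℘'[L] (6 * ℘[L] z ^ 2 - L.g₂ / 2) z := by
  set U : Set ℂ := (L.lattice : Set ℂ)ᶜ with hU
  have hUo : IsOpen U := isOpen_compl_lattice L
  have hf : AnalyticOnNhd ℂ ℘'[L] U := L.analyticOnNhd_derivWeierstrassP
  have hp : AnalyticOnNhd ℂ ℘[L] U := L.analyticOnNhd_weierstrassP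
  set F : ℂ → ℂ := fun w => 2 * deriv ℘'[L] w - 12 * ℘[L] w ^ 2 + L.g₂ with hF
  have hFa : AnalyticOnNhd ℂ F U := by
    intro w hw
    have h1 : AnalyticAt ℂ (deriv ℘'[L]) w := (hf w hw).deriv
    have h2 : AnalyticAt ℂ ℘[L] w := hp w hw
    simp only [hF]
    fun_prop
  have hmul : ∀ w ∈ U, ℘'[L] w * F w = 0 := by
    intro w hw
    have hev : (fun t => ℘'[L] t ^ 2) =ᶠ[𝓝 w] fun t => 4 * ℘[L] t ^ 3 - L.g₂ * ℘[L] t - L.g₃ := by
      filter_upwards [hUo.mem_nhds hw] with t ht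
      exact L.derivWeierstrassP_sq t ht
    have hd := hev.deriv_eq
    have hdw : HasDerivAt ℘'[L] (deriv ℘'[L] w) w := (hf w hw).differentiableAt.hasDerivAt
    have hpw : HasDerivAt ℘[L] (℘'[L] w) w := hasDerivAt_wp L hw
    have e1 : deriv (fun t => ℘'[L] t ^ 2) w = 2 * ℘'[L] w * deriv ℘'[L] w := by
      have := (hdw.fun_pow 2).deriv
      rw [this]; push_cast; ring
    have e2 : deriv (fun t => 4 * ℘[L] t ^ 3 - L.g₂ * ℘[L] t - L.g₃) w
        = 12 * ℘[L] w ^ 2 * ℘'[L] w - L.g₂ * ℘'[L] w := by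
      have := ((((hpw.fun_pow 3).const_mul 4).fun_sub (hpw.const_mul L.g₂)).sub_const L.g₃).deriv
      rw [this]; push_cast; ring
    rw [e1, e2] at hd
    simp only [hF]
    linear_combination hd
  rcases hf.eq_zero_or_eq_zero_of_mul_eq_zero hFa hmul (isPreconnected_compl_lattice L) with h | h
  · exfalso
    obtain ⟨w, hw, hw0⟩ := exists_dwp_ne_zero L
    exact hw0 (h w hw)
  · have hdz : HasDerivAt ℘'[L] (deriv ℘'[L] z) z := (hf z hz).differentiableAt.hasDerivAt
    have := h z hz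
    simp only [hF] at this
    have e : deriv ℘'[L] z = 6 * ℘[L] z ^ 2 - L.g₂ / 2 := by linear_combination (1 / 2 : ℂ) * this
    rwa [e] at hdz

end Fermat.Agent.MAZ.Unif18
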