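/-
MAZ F-D1 (helper18), U2: `z ↦ (℘ z, ℘' z)` is injective modulo the lattice.
Proof by uniqueness for the second order equation `f'' = 6 f² - g₂/2`.
-/
import Fermat.Agent.MAZ.Unif18.WPBasic

set_option autoImplicit false

open Filter Topology
open scoped PeriodPair

namespace Fermat.Agent.MAZ.Unif18

open PeriodPair

/-- Local uniqueness for `D'' = g D` with vanishing initial data (orders of vanishing). -/
lemma eventually_eq_zero_of_ode {D g : ℂ → ℂ} {t₀ : ℂ} (hD : AnalyticAt ℂ D t₀)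
    (hg : AnalyticAt ℂ g t₀) (hode : ∀ᶠ t in 𝓝 t₀, deriv (deriv D) t = g t * D t)
    (h0 : D t₀ = 0) (h1 : deriv D t₀ = 0) : ∀ᶠ t in 𝓝 t₀, D t = 0 := by
  rw [← analyticOrderAt_eq_top]
  by_contra htop
  obtain ⟨n, hn⟩ := ENat.ne_top_iff_exists.mp htop
  have h2 : ((2 : ℕ) : ℕ∞) ≤ analyticOrderAt D t₀ := by
    rw [natCast_le_analyticOrderAt_iff_iteratedDeriv_eq_zero hD]
    intro i hi
    interval_cases i
    · simpa using h0
    · simpa [iteratedDeriv_one] using h1
  have hn2 : 2 ≤ n := by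
    rw [← hn] at h2
    exact_mod_cast h2
  obtain ⟨m, rfl⟩ : ∃ m, n = m + 2 := ⟨n - 2, by omega⟩
  have o1 : analyticOrderAt (deriv D) t₀ = ((m + 1 : ℕ) : ℕ∞) :=
    analyticOrderAt_deriv_of_pos hD (by rw [← hn]; push_cast; ring)
  have o2 : analyticOrderAt (deriv (deriv D)) t₀ = ((m : ℕ) : ℕ∞) :=
    analyticOrderAt_deriv_of_pos hD.deriv (by rw [o1]; push_cast; rfl)
  have o3 : analyticOrderAt (deriv (deriv D)) t₀ = analyticOrderAt g t₀ + analyticOrderAt D t₀ := by
    rw [analyticOrderAt_congr hode]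
    exact analyticOrderAt_mul hg hD
  rw [o2, ← hn] at o3
  have : ((m + 2 : ℕ) : ℕ∞) ≤ (m : ℕ∞) := by
    rw [o3]
    exact le_add_self
  have : m + 2 ≤ m := by exact_mod_cast this
  omega

variable (L : PeriodPair)

/-- The set `{t | t + c ∈ L}` is countable. -/
lemma countable_shift (c : ℂ) : {t : ℂ | t + c ∈ L.lattice}.Countable := by
  have : {t : ℂ | t + c ∈ L.lattice} = (fun l => l - c) '' (L.lattice : Set ℂ) := by
    ext t
    simp only [Set.mem_ofPred_eq, Set.mem_image, SetLike.mem_coe]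
    constructor
    · intro h; exact ⟨t + c, h, by ring⟩
    · rintro ⟨l, hl, rfl⟩; simpa using hl
  rw [this]
  exact (countable_lattice L).image _

lemma isClosed_shift (c : ℂ) : IsClosed {t : ℂ | t + c ∈ L.lattice} :=
  L.isClosed_lattice.preimage (continuous_id.add continuous_const)

/-- The complement of `L ∪ (L - c)`. -/
def shiftCompl (c : ℂ) : Set ℂ := {t : ℂ | t ∉ L.lattice ∧ t + c ∉ L.lattice}

lemma shiftCompl_eq (c : ℂ) :
    shiftCompl L c = ((L.lattice : Set ℂ) ∪ {t : ℂ | t + c ∈ L.lattice})ᶜ := by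
  ext t
  simp [shiftCompl]

lemma isOpen_shiftCompl (c : ℂ) : IsOpen (shiftCompl L c) := by
  rw [shiftCompl_eq]
  exact (L.isClosed_lattice.union (isClosed_shift L c)).isOpen_compl

lemma isPreconnected_shiftCompl (c : ℂ) : IsPreconnected (shiftCompl L c) := by
  rw [shiftCompl_eq]
  exact (((countable_lattice L).union (countable_shift L c)).isConnected_compl_of_one_lt_rank
    (by simp only [Complex.rank_real_complex, Nat.one_lt_ofNat])).isPreconnected

lemma hasDerivAt_wp_shift (c : ℂ) {t : ℂ} (ht : t + c ∉ L.lattice) :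
    HasDerivAt (fun t => ℘[L] (t + c)) (℘'[L] (t + c)) t := by
  have := (hasDerivAt_wp L ht).comp_add_const t c
  exact this

lemma hasDerivAt_dwp_shift (c : ℂ) {t : ℂ} (ht : t + c ∉ L.lattice) :
    HasDerivAt (fun t => ℘'[L] (t + c)) (6 * ℘[L] (t + c) ^ 2 - L.g₂ / 2) t := by
  have := (hasDerivAt_dwp L ht).comp_add_const t c
  exact this

/-- Injectivity of `(℘, ℘')` modulo the lattice. -/
theorem sub_mem_lattice_of_wp_eq_of_dwp_eq {z w : ℂ} (hz : z ∉ L.lattice) (hw : w ∉ L.lattice)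
    (h : ℘[L] z = ℘[L] w) (h' : ℘'[L] z = ℘'[L] w) : z - w ∈ L.lattice := by
  by_contra hc
  set c : ℂ := z - w with hcdef
  have hwc : w + c = z := by rw [hcdef]; ring
  set U := shiftCompl L c with hU
  have hUo : IsOpen U := isOpen_shiftCompl L c
  have hwU : w ∈ U := ⟨hw, by rw [hwc]; exact hz⟩
  set D : ℂ → ℂ := fun t => ℘[L] (t + c) - ℘[L] t with hDdef
  set g : ℂ → ℂ := fun t => 6 * (℘[L] (t + c) + ℘[L] t) with hgdef
  have hpa : ∀ t ∈ U, AnalyticAt ℂ (fun t => ℘[L] (t + c)) t := by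
    intro t ht
    have h1 : AnalyticAt ℂ ℘[L] (t + c) := L.analyticOnNhd_weierstrassP _ ht.2
    have h2 : AnalyticAt ℂ (fun t : ℂ => t + c) t := by fun_prop
    exact AnalyticAt.comp (f := fun t : ℂ => t + c) (g := ℘[L]) h1 h2
  have hDa : AnalyticOnNhd ℂ D U := by
    intro t ht
    exact (hpa t ht).sub (L.analyticOnNhd_weierstrassP _ ht.1)
  have hga : AnalyticOnNhd ℂ g U := by
    intro t ht
    exact analyticAt_const.mul ((hpa t ht).add (L.analyticOnNhd_weierstrassP _ ht.1))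
  -- first derivative
  have hD1 : ∀ t ∈ U, HasDerivAt D (℘'[L] (t + c) - ℘'[L] t) t := by
    intro t ht
    exact (hasDerivAt_wp_shift L c ht.2).sub (hasDerivAt_wp L ht.1)
  have hD1' : ∀ t ∈ U, deriv D t = ℘'[L] (t + c) - ℘'[L] t := fun t ht => (hD1 t ht).deriv
  -- second derivative
  have hD2 : ∀ t ∈ U, deriv (deriv D) t = g t * D t := by
    intro t ht
    have hev : deriv D =ᶠ[𝓝 t] fun t => ℘'[L] (t + c) - ℘'[L] t := by
      filter_upwards [hUo.mem_nhds ht] with x hx
      exact hD1' x hx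
    rw [hev.deriv_eq]
    have := ((hasDerivAt_dwp_shift L c ht.2).fun_sub (hasDerivAt_dwp L ht.1)).deriv
    rw [this]
    simp only [hgdef, hDdef]
    ring
  have hloc : ∀ᶠ t in 𝓝 w, D t = 0 := by
    refine eventually_eq_zero_of_ode (hDa w hwU) (hga w hwU) ?_ ?_ ?_
    · filter_upwards [hUo.mem_nhds hwU] with t ht
      exact hD2 t ht
    · simp only [hDdef, hwc, h, sub_self]
    · rw [hD1' w hwU, hwc, h', sub_self]
  have hglob : ∀ t ∈ U, D t = 0 :=
    hDa.eqOn_zero_of_preconnected_of_eventuallyEq_zero (isPreconnected_shiftCompl L c) hwU hloc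
  -- contradiction at `t → 0`
  have hcU : ∀ᶠ t in 𝓝 (0 : ℂ), t + c ∉ L.lattice := by
    have hcont : ContinuousAt (fun t : ℂ => t + c) 0 := by fun_prop
    have : (L.lattice : Set ℂ)ᶜ ∈ 𝓝 ((0 : ℂ) + c) := by
      rw [zero_add]; exact (isOpen_compl_lattice L).mem_nhds hc
    exact hcont.eventually this
  have hlim1 : Tendsto (fun t => ℘[L] (t + c)) (𝓝[≠] (0 : ℂ)) (𝓝 (℘[L] c)) := by
    have hcont : ContinuousAt (fun t => ℘[L] (t + c)) 0 := by
      have h1 : ContinuousAt ℘[L] ((0 : ℂ) + c) := by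
        rw [zero_add]; exact (L.analyticOnNhd_weierstrassP c hc).continuousAt
      have h2 : ContinuousAt (fun t : ℂ => t + c) 0 := by fun_prop
      exact ContinuousAt.comp (f := fun t : ℂ => t + c) (g := ℘[L]) h1 h2
    have := hcont.tendsto
    simp only [zero_add] at this
    exact this.mono_left nhdsWithin_le_nhds
  have hlim2 : Tendsto ℘[L] (𝓝[≠] (0 : ℂ)) (𝓝 (℘[L] c)) := by
    refine hlim1.congr' ?_
    filter_upwards [eventually_notMem_lattice L 0,
      eventually_nhdsWithin_of_eventually_nhds hcU] with t ht1 ht2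
    have := hglob t ⟨ht1, ht2⟩
    simp only [hDdef] at this
    exact sub_eq_zero.mp this
  have h3 := tendsto_wp_cobounded L (l := 0) (zero_mem _)
  rw [← tendsto_norm_atTop_iff_cobounded] at h3
  exact not_tendsto_atTop_of_tendsto_nhds hlim2.norm h3

end Fermat.Agent.MAZ.Unif18
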