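/-
MAZ F-D1 (helper18), U4: the addition theorem for `℘` (generic chord case).
Proof: for fixed `s`, the chord expression `t ↦ λ(t, s - t)² - ℘ t - ℘ (s - t)` has derivative `0`
and tends to `℘ s` as `t → 0`.
-/
import Fermat.Agent.MAZ.Unif18.WPInj

set_option autoImplicit false

open Filter Topology
open scoped PeriodPair

namespace Fermat.Agent.MAZ.Unif18

open PeriodPair

variable (L : PeriodPair)

/-- The complement of `L ∪ (s - L)`. -/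
def reflCompl (s : ℂ) : Set ℂ := {t : ℂ | t ∉ L.lattice ∧ s - t ∉ L.lattice}

lemma countable_refl (s : ℂ) : {t : ℂ | s - t ∈ L.lattice}.Countable := by
  have : {t : ℂ | s - t ∈ L.lattice} = (fun l => s - l) '' (L.lattice : Set ℂ) := by
    ext t
    simp only [Set.mem_ofPred_eq, Set.mem_image, SetLike.mem_coe]
    constructor
    · intro h; exact ⟨s - t, h, by ring⟩
    · rintro ⟨l, hl, rfl⟩; simpa using hl
  rw [this]
  exact (countable_lattice L).image _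

lemma isClosed_refl (s : ℂ) : IsClosed {t : ℂ | s - t ∈ L.lattice} :=
  L.isClosed_lattice.preimage (continuous_const.sub continuous_id)

lemma reflCompl_eq (s : ℂ) :
    reflCompl L s = ((L.lattice : Set ℂ) ∪ {t : ℂ | s - t ∈ L.lattice})ᶜ := by
  ext t
  simp [reflCompl]

lemma isOpen_reflCompl (s : ℂ) : IsOpen (reflCompl L s) := by
  rw [reflCompl_eq]
  exact (L.isClosed_lattice.union (isClosed_refl L s)).isOpen_compl

lemma isPreconnected_reflCompl (s : ℂ) : IsPreconnected (reflCompl L s) := by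
  rw [reflCompl_eq]
  exact (((countable_lattice L).union (countable_refl L s)).isConnected_compl_of_one_lt_rank
    (by simp only [Complex.rank_real_complex, Nat.one_lt_ofNat])).isPreconnected

lemma hasDerivAt_wp_refl (s : ℂ) {t : ℂ} (ht : s - t ∉ L.lattice) :
    HasDerivAt (fun t => ℘[L] (s - t)) (-℘'[L] (s - t)) t :=
  (hasDerivAt_wp L ht).comp_const_sub s t

lemma hasDerivAt_dwp_refl (s : ℂ) {t : ℂ} (ht : s - t ∉ L.lattice) :
    HasDerivAt (fun t => ℘'[L] (s - t)) (-(6 * ℘[L] (s - t) ^ 2 - L.g₂ / 2)) t :=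
  (hasDerivAt_dwp L ht).comp_const_sub s t

lemma analyticAt_wp_refl (s : ℂ) {t : ℂ} (ht : s - t ∉ L.lattice) :
    AnalyticAt ℂ (fun t => ℘[L] (s - t)) t := by
  have h1 : AnalyticAt ℂ ℘[L] (s - t) := L.analyticOnNhd_weierstrassP _ ht
  have h2 : AnalyticAt ℂ (fun t : ℂ => s - t) t := by fun_prop
  exact AnalyticAt.comp (f := fun t : ℂ => s - t) (g := ℘[L]) h1 h2

lemma analyticAt_dwp_refl (s : ℂ) {t : ℂ} (ht : s - t ∉ L.lattice) :
    AnalyticAt ℂ (fun t => ℘'[L] (s - t)) t := by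
  have h1 : AnalyticAt ℂ ℘'[L] (s - t) := L.analyticOnNhd_derivWeierstrassP _ ht
  have h2 : AnalyticAt ℂ (fun t : ℂ => s - t) t := by fun_prop
  exact AnalyticAt.comp (f := fun t : ℂ => s - t) (g := ℘'[L]) h1 h2

/-- Pure algebra behind `d/dt chordX = 0`. -/
lemma chord_deriv_alg {X₁ X₂ Y₁ Y₂ g₂ g₃ : ℂ} (hne : X₁ ≠ X₂)
    (e1 : Y₁ ^ 2 = 4 * X₁ ^ 3 - g₂ * X₁ - g₃) (e2 : Y₂ ^ 2 = 4 * X₂ ^ 3 - g₂ * X₂ - g₃) :
    ((2 : ℕ) : ℂ) * ((Y₁ - Y₂) / (2 * (X₁ - X₂))) ^ (2 - 1) *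
          (((6 * X₁ ^ 2 - g₂ / 2 - -(6 * X₂ ^ 2 - g₂ / 2)) * (2 * (X₁ - X₂)) -
            (Y₁ - Y₂) * (2 * (Y₁ - -Y₂))) / (2 * (X₁ - X₂)) ^ 2) - Y₁ - -Y₂ = 0 := by
  obtain ⟨d, rfl⟩ : ∃ d, X₁ = X₂ + d := ⟨X₁ - X₂, by ring⟩
  have hd : d ≠ 0 := by
    rintro rfl
    exact hne (by ring)
  simp only [add_sub_cancel_left]
  have h21 : (2 : ℕ) - 1 = 1 := rfl
  rw [h21, pow_one]
  push_cast
  field_simp
  linear_combination (-2 * (Y₁ - Y₂)) * (e1 - e2)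

/-- The `x`-coordinate of the chord sum of the points with parameters `t` and `s - t`. -/
noncomputable def chordX (s t : ℂ) : ℂ :=
  ((℘'[L] t - ℘'[L] (s - t)) / (2 * (℘[L] t - ℘[L] (s - t)))) ^ 2 - ℘[L] t - ℘[L] (s - t)

lemma hasDerivAt_chordX (s : ℂ) {t : ℂ} (ht : t ∉ L.lattice) (hst : s - t ∉ L.lattice)
    (hne : ℘[L] t ≠ ℘[L] (s - t)) : HasDerivAt (chordX L s) 0 t := by
  have e1 := L.derivWeierstrassP_sq t ht
  have e2 := L.derivWeierstrassP_sq (s - t) hst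
  have hX1 := hasDerivAt_wp L ht
  have hY1 := hasDerivAt_dwp L ht
  have hX2 := hasDerivAt_wp_refl L s hst
  have hY2 := hasDerivAt_dwp_refl L s hst
  have hden : 2 * (℘[L] t - ℘[L] (s - t)) ≠ 0 :=
    mul_ne_zero two_ne_zero (sub_ne_zero.mpr hne)
  have hlam := (hY1.fun_sub hY2).fun_div ((hX1.fun_sub hX2).const_mul 2) hden
  have hfin := ((hlam.fun_pow 2).fun_sub hX1).fun_sub hX2
  have hfin' : HasDerivAt (chordX L s) _ t := hfin
  convert hfin' using 1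
  exact (chord_deriv_alg hne e1 e2).symm

/-- `℘ t ≠ ℘ (s - t)` and `t, s - t ∉ L` for `t ≠ 0` close to `0`. -/
lemma eventually_chord_ok (s : ℂ) (hs : s ∉ L.lattice) :
    ∀ᶠ t in 𝓝[≠] (0 : ℂ), t ∉ L.lattice ∧ s - t ∉ L.lattice ∧ ℘[L] t ≠ ℘[L] (s - t) ∧
      ℘[L] t ≠ 0 := by
  have h1 := eventually_notMem_lattice L 0
  have hcont : ContinuousAt (fun t : ℂ => s - t) 0 := by fun_prop
  have h2 : ∀ᶠ t in 𝓝 (0 : ℂ), s - t ∉ L.lattice := by
    have : (L.lattice : Set ℂ)ᶜ ∈ 𝓝 (s - (0 : ℂ)) := by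
      rw [sub_zero]; exact (isOpen_compl_lattice L).mem_nhds hs
    exact hcont.eventually this
  have hc2 : ContinuousAt (fun t => ℘[L] (s - t)) 0 :=
    (analyticAt_wp_refl L s (t := 0) (by simpa using hs)).continuousAt
  have h3 : ∀ᶠ t in 𝓝 (0 : ℂ), ‖℘[L] (s - t)‖ < ‖℘[L] s‖ + 1 := by
    have := hc2.norm
    exact this.eventually_lt continuousAt_const (by simp)
  have h4 := tendsto_wp_cobounded L (l := 0) (zero_mem _)
  rw [← tendsto_norm_atTop_iff_cobounded] at h4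
  have h5 : ∀ᶠ t in 𝓝[≠] (0 : ℂ), ‖℘[L] s‖ + 1 ≤ ‖℘[L] t‖ := h4.eventually_ge_atTop _
  filter_upwards [h1, eventually_nhdsWithin_of_eventually_nhds h2,
    eventually_nhdsWithin_of_eventually_nhds h3, h5] with t ht1 ht2 ht3 ht5
  refine ⟨ht1, ht2, ?_, ?_⟩
  · intro h
    rw [h] at ht5
    linarith
  · intro h
    rw [h, norm_zero] at ht5
    have := norm_nonneg (℘[L] s)
    linarith

/-- Pure algebra behind the limit of `chordX` at `t → 0`. -/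
lemma chord_limit_alg {X₁ X₂ Y₁ Y₂ g₂ g₃ : ℂ} (h0 : X₁ ≠ 0) (hne : X₁ ≠ X₂)
    (e1 : Y₁ ^ 2 = 4 * X₁ ^ 3 - g₂ * X₁ - g₃) :
    ((Y₁ - Y₂) / (2 * (X₁ - X₂))) ^ 2 - X₁ - X₂ =
      (-g₂ * X₁⁻¹ - g₃ * X₁⁻¹ ^ 2 - 2 * (Y₁ * X₁⁻¹ ^ 2) * Y₂ + Y₂ ^ 2 * X₁⁻¹ ^ 2 + 8 * X₂
          - 4 * X₂ ^ 2 * X₁⁻¹) / (4 * (1 - X₂ * X₁⁻¹) ^ 2) - X₂ := by
  have hd : X₁ - X₂ ≠ 0 := sub_ne_zero.mpr hne
  have h1 : 1 - X₂ * X₁⁻¹ = (X₁ - X₂) * X₁⁻¹ := by field_simp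
  rw [h1]
  field_simp
  linear_combination 4 * e1

lemma tendsto_chordX (s : ℂ) (hs : s ∉ L.lattice) :
    Tendsto (chordX L s) (𝓝[≠] (0 : ℂ)) (𝓝 (℘[L] s)) := by
  have hcob := tendsto_wp_cobounded L (l := 0) (zero_mem _)
  have hε : Tendsto (fun t => (℘[L] t)⁻¹) (𝓝[≠] (0 : ℂ)) (𝓝 0) :=
    tendsto_inv₀_cobounded.comp hcob
  have hok := eventually_chord_ok L s hs
  have hδ2 : Tendsto (fun t => (℘'[L] t * (℘[L] t)⁻¹ ^ 2) ^ 2) (𝓝[≠] (0 : ℂ)) (𝓝 0) := by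
    have h : Tendsto (fun t => 4 * (℘[L] t)⁻¹ - L.g₂ * (℘[L] t)⁻¹ ^ 3 - L.g₃ * (℘[L] t)⁻¹ ^ 4)
        (𝓝[≠] (0 : ℂ)) (𝓝 (4 * 0 - L.g₂ * 0 ^ 3 - L.g₃ * 0 ^ 4)) :=
      ((hε.const_mul 4).sub ((hε.pow 3).const_mul L.g₂)).sub ((hε.pow 4).const_mul L.g₃)
    have h0 : (4 * 0 - L.g₂ * 0 ^ 3 - L.g₃ * 0 ^ 4 : ℂ) = 0 := by ring
    rw [h0] at h
    refine h.congr' ?_
    filter_upwards [hok] with t ht
    obtain ⟨ht1, -, -, ht0⟩ := ht
    have e1 := L.derivWeierstrassP_sq t ht1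
    field_simp
    linear_combination -e1
  have hδ : Tendsto (fun t => ℘'[L] t * (℘[L] t)⁻¹ ^ 2) (𝓝[≠] (0 : ℂ)) (𝓝 0) := by
    rw [tendsto_zero_iff_norm_tendsto_zero] at hδ2 ⊢
    have h := (Real.continuous_sqrt.tendsto 0).comp hδ2
    simp only [Real.sqrt_zero] at h
    refine h.congr fun t => ?_
    simp only [Function.comp_apply, norm_pow]
    exact Real.sqrt_sq (norm_nonneg _)
  have hX₂ : Tendsto (fun t => ℘[L] (s - t)) (𝓝[≠] (0 : ℂ)) (𝓝 (℘[L] s)) := by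
    have hc : ContinuousAt (fun t => ℘[L] (s - t)) 0 :=
      (analyticAt_wp_refl L s (t := 0) (by simpa using hs)).continuousAt
    have := hc.tendsto
    simp only [sub_zero] at this
    exact this.mono_left nhdsWithin_le_nhds
  have hY₂ : Tendsto (fun t => ℘'[L] (s - t)) (𝓝[≠] (0 : ℂ)) (𝓝 (℘'[L] s)) := by
    have hc : ContinuousAt (fun t => ℘'[L] (s - t)) 0 :=
      (analyticAt_dwp_refl L s (t := 0) (by simpa using hs)).continuousAt
    have := hc.tendsto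
    simp only [sub_zero] at this
    exact this.mono_left nhdsWithin_le_nhds
  have hRc : ContinuousAt (fun q : ℂ × ℂ × ℂ × ℂ =>
      (-L.g₂ * q.1 - L.g₃ * q.1 ^ 2 - 2 * q.2.1 * q.2.2.2 + q.2.2.2 ^ 2 * q.1 ^ 2 + 8 * q.2.2.1
        - 4 * q.2.2.1 ^ 2 * q.1) / (4 * (1 - q.2.2.1 * q.1) ^ 2) - q.2.2.1)
      (0, 0, ℘[L] s, ℘'[L] s) := by
    refine ContinuousAt.sub (ContinuousAt.div (by fun_prop) (by fun_prop) (by simp)) (by fun_prop)
  have hcomp := hRc.tendsto.comp (hε.prodMk_nhds (hδ.prodMk_nhds (hX₂.prodMk_nhds hY₂)))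
  have hval : ((-L.g₂ * 0 - L.g₃ * 0 ^ 2 - 2 * 0 * ℘'[L] s + ℘'[L] s ^ 2 * 0 ^ 2 + 8 * ℘[L] s
        - 4 * ℘[L] s ^ 2 * 0) / (4 * (1 - ℘[L] s * 0) ^ 2) - ℘[L] s : ℂ) = ℘[L] s := by
    norm_num
    ring
  simp only [] at hcomp
  rw [hval] at hcomp
  refine hcomp.congr' ?_
  filter_upwards [hok] with t ht
  obtain ⟨ht1, -, hne, ht0⟩ := ht
  have e1 := L.derivWeierstrassP_sq t ht1
  simp only [Function.comp_apply, chordX]
  exact (chord_limit_alg ht0 hne e1).symm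

/-- The addition theorem with cleared denominators, on all of `reflCompl L s`. -/
theorem chord_identity (s : ℂ) (hs : s ∉ L.lattice) {t : ℂ} (ht : t ∈ reflCompl L s) :
    4 * (℘[L] s + ℘[L] t + ℘[L] (s - t)) * (℘[L] t - ℘[L] (s - t)) ^ 2
      - (℘'[L] t - ℘'[L] (s - t)) ^ 2 = 0 := by
  set H : ℂ → ℂ := fun t => 4 * (℘[L] s + ℘[L] t + ℘[L] (s - t)) * (℘[L] t - ℘[L] (s - t)) ^ 2
      - (℘'[L] t - ℘'[L] (s - t)) ^ 2 with hH
  have hHa : AnalyticOnNhd ℂ H (reflCompl L s) := by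
    intro x hx
    have a1 : AnalyticAt ℂ ℘[L] x := L.analyticOnNhd_weierstrassP x hx.1
    have a2 : AnalyticAt ℂ ℘'[L] x := L.analyticOnNhd_derivWeierstrassP x hx.1
    have a3 := analyticAt_wp_refl L s hx.2
    have a4 := analyticAt_dwp_refl L s hx.2
    simp only [hH]
    fun_prop
  -- a punctured disc on which everything is fine
  have hok := eventually_chord_ok L s hs
  rw [eventually_nhdsWithin_iff, Metric.eventually_nhds_iff] at hok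
  obtain ⟨r, hr, hball⟩ := hok
  set W : Set ℂ := Metric.ball ((r / 2 : ℝ) : ℂ) (r / 2) with hW
  have hr2 : 0 < r / 2 := by positivity
  have hnorm : ‖((r / 2 : ℝ) : ℂ)‖ = r / 2 := by
    rw [Complex.norm_real, Real.norm_eq_abs, abs_of_pos hr2]
  have hWsub : ∀ x ∈ W, x ∉ L.lattice ∧ s - x ∉ L.lattice ∧ ℘[L] x ≠ ℘[L] (s - x) ∧
      ℘[L] x ≠ 0 := by
    intro x hx
    have hx' : dist x ((r / 2 : ℝ) : ℂ) < r / 2 := hx
    refine hball ?_ ?_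
    · calc dist x 0 ≤ dist x ((r / 2 : ℝ) : ℂ) + dist ((r / 2 : ℝ) : ℂ) 0 := dist_triangle _ _ _
        _ < r / 2 + r / 2 := by
            rw [dist_zero_right, hnorm]; linarith
        _ = r := by ring
    · rintro rfl
      rw [dist_comm, dist_zero_right, hnorm] at hx'
      exact lt_irrefl _ hx'
  -- `chordX` is constant on `W`
  have hdiff : DifferentiableOn ℂ (chordX L s) W := fun x hx =>
    (hasDerivAt_chordX L s (hWsub x hx).1 (hWsub x hx).2.1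
      (hWsub x hx).2.2.1).differentiableAt.differentiableWithinAt
  have hderiv : W.EqOn (deriv (chordX L s)) 0 := fun x hx =>
    (hasDerivAt_chordX L s (hWsub x hx).1 (hWsub x hx).2.1 (hWsub x hx).2.2.1).deriv
  obtain ⟨a, ha⟩ := Metric.isOpen_ball.exists_is_const_of_deriv_eq_zero
    Metric.isPreconnected_ball hdiff hderiv
  -- the constant is `℘ s`
  have hcl : (0 : ℂ) ∈ closure W := by
    rw [hW, closure_ball _ hr2.ne', Metric.mem_closedBall, dist_comm, dist_zero_right, hnorm]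
  have hne : (𝓝[W] (0 : ℂ)).NeBot := mem_closure_iff_nhdsWithin_neBot.mp hcl
  have hWne : W ⊆ ({0} : Set ℂ)ᶜ := by
    intro x hx h0
    rw [Set.mem_singleton_iff] at h0
    subst h0
    have hx' : dist (0 : ℂ) ((r / 2 : ℝ) : ℂ) < r / 2 := hx
    rw [dist_comm, dist_zero_right, hnorm] at hx'
    exact lt_irrefl _ hx'
  have hl1 : Tendsto (chordX L s) (𝓝[W] (0 : ℂ)) (𝓝 (℘[L] s)) :=
    (tendsto_chordX L s hs).mono_left (nhdsWithin_mono _ hWne)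
  have hl2 : Tendsto (chordX L s) (𝓝[W] (0 : ℂ)) (𝓝 a) := by
    refine tendsto_const_nhds.congr' ?_
    filter_upwards [self_mem_nhdsWithin] with x hx
    exact (ha x hx).symm
  have haeq : a = ℘[L] s := tendsto_nhds_unique hl2 hl1
  -- hence `H = 0` on `W`
  have hHW : ∀ x ∈ W, H x = 0 := by
    intro x hx
    obtain ⟨hx1, hx2, hx3, -⟩ := hWsub x hx
    have h1 := ha x hx
    rw [haeq, chordX] at h1
    have hd : ℘[L] x - ℘[L] (s - x) ≠ 0 := sub_ne_zero.mpr hx3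
    simp only [hH]
    field_simp at h1
    linear_combination -h1
  have hc : ((r / 2 : ℝ) : ℂ) ∈ W := Metric.mem_ball_self hr2
  have hcV : ((r / 2 : ℝ) : ℂ) ∈ reflCompl L s := ⟨(hWsub _ hc).1, (hWsub _ hc).2.1⟩
  have hloc : ∀ᶠ x in 𝓝 ((r / 2 : ℝ) : ℂ), H x = 0 := by
    filter_upwards [Metric.isOpen_ball.mem_nhds hc] with x hx
    exact hHW x hx
  exact hHa.eqOn_zero_of_preconnected_of_eventuallyEq_zero (isPreconnected_reflCompl L s)
    hcV hloc ht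

/-- **Addition theorem** for `℘` (chord case), `x`-coordinate. -/
theorem wp_add {z w : ℂ} (hz : z ∉ L.lattice) (hw : w ∉ L.lattice) (hzw : z + w ∉ L.lattice)
    (hne : ℘[L] z ≠ ℘[L] w) :
    ℘[L] (z + w) =
      ((℘'[L] z - ℘'[L] w) / (2 * (℘[L] z - ℘[L] w))) ^ 2 - ℘[L] z - ℘[L] w := by
  have hsub : z + w - z = w := by ring
  have h := chord_identity L (z + w) hzw (t := z) ⟨hz, by rw [hsub]; exact hw⟩
  rw [hsub] at h
  have hd : ℘[L] z - ℘[L] w ≠ 0 := sub_ne_zero.mpr hne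
  field_simp
  linear_combination h

/-- Pure algebra behind the `y`-coordinate of the addition theorem. -/
lemma chord_y_alg {X₁ X₂ X₃ Y₁ Y₂ g₂ g₃ : ℂ} (hne : X₁ ≠ X₂)
    (e1 : Y₁ ^ 2 = 4 * X₁ ^ 3 - g₂ * X₁ - g₃) (e2 : Y₂ ^ 2 = 4 * X₂ ^ 3 - g₂ * X₂ - g₃)
    (e3 : X₃ = ((Y₁ - Y₂) / (2 * (X₁ - X₂))) ^ 2 - X₁ - X₂) :
    ((2 : ℕ) : ℂ) * ((Y₁ - Y₂) / (2 * (X₁ - X₂))) ^ (2 - 1) *
          (((6 * X₁ ^ 2 - g₂ / 2) * (2 * (X₁ - X₂)) - (Y₁ - Y₂) * (2 * Y₁)) /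
            (2 * (X₁ - X₂)) ^ 2) - Y₁ =
      2 * ((Y₁ - Y₂) / (2 * (X₁ - X₂))) * (X₁ - X₃) - Y₁ := by
  obtain ⟨d, rfl⟩ : ∃ d, X₁ = X₂ + d := ⟨X₁ - X₂, by ring⟩
  have hd : d ≠ 0 := by
    rintro rfl
    exact hne (by ring)
  simp only [add_sub_cancel_left] at e3 ⊢
  have h21 : (2 : ℕ) - 1 = 1 := rfl
  rw [h21, pow_one, e3]
  push_cast
  field_simp
  linear_combination (-(Y₁ - Y₂)) * (e1 - e2)

/-- **Addition theorem** for `℘` (chord case), `y`-coordinate. -/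
theorem dwp_add {z w : ℂ} (hz : z ∉ L.lattice) (hw : w ∉ L.lattice) (hzw : z + w ∉ L.lattice)
    (hne : ℘[L] z ≠ ℘[L] w) :
    ℘'[L] (z + w) =
      2 * ((℘'[L] z - ℘'[L] w) / (2 * (℘[L] z - ℘[L] w))) * (℘[L] z - ℘[L] (z + w))
        - ℘'[L] z := by
  have hev1 : ∀ᶠ x in 𝓝 z, x ∉ L.lattice := (isOpen_compl_lattice L).mem_nhds hz
  have hev2 : ∀ᶠ x in 𝓝 z, x + w ∉ L.lattice := by
    have hcont : ContinuousAt (fun x : ℂ => x + w) z := by fun_prop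
    exact hcont.eventually ((isOpen_compl_lattice L).mem_nhds hzw)
  have hev3 : ∀ᶠ x in 𝓝 z, ℘[L] x ≠ ℘[L] w :=
    (L.analyticOnNhd_weierstrassP z hz).continuousAt.eventually_ne hne
  have hev : (fun x => ℘[L] (x + w)) =ᶠ[𝓝 z] fun x =>
      ((℘'[L] x - ℘'[L] w) / (2 * (℘[L] x - ℘[L] w))) ^ 2 - ℘[L] x - ℘[L] w := by
    filter_upwards [hev1, hev2, hev3] with x h1 h2 h3
    exact wp_add L h1 hw h2 h3
  have hF : HasDerivAt (fun x => ℘[L] (x + w)) (℘'[L] (z + w)) z := hasDerivAt_wp_shift L w hzw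
  have hX1 := hasDerivAt_wp L hz
  have hY1 := hasDerivAt_dwp L hz
  have hden : 2 * (℘[L] z - ℘[L] w) ≠ 0 := mul_ne_zero two_ne_zero (sub_ne_zero.mpr hne)
  have hlam := (hY1.sub_const (℘'[L] w)).fun_div ((hX1.sub_const (℘[L] w)).const_mul 2) hden
  have hG := ((hlam.fun_pow 2).fun_sub hX1).sub_const (℘[L] w)
  have huniq := (hF.congr_of_eventuallyEq hev.symm).unique hG
  have e1 := L.derivWeierstrassP_sq z hz
  have e2 := L.derivWeierstrassP_sq w hw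
  have e3 := wp_add L hz hw hzw hne
  rw [huniq]
  exact chord_y_alg hne e1 e2 e3

end Fermat.Agent.MAZ.Unif18
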