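/-
MAZ F-D1 (helper18), U5a: `℘ z = ℘ w ↔ z ≡ ± w`, non-vanishing of the discriminant
`g₂³ - 27 g₃²`, the curve `E_L : y² = x³ - g₂/4 x - g₃/4` and the map `ℂ → E_L(ℂ)`,
`z ↦ (℘ z, ℘' z / 2)`; additivity of this map.
-/
import Fermat.Agent.MAZ.Unif18.WPAdd

set_option autoImplicit false

open Filter Topology
open scoped PeriodPair

namespace Fermat.Agent.MAZ.Unif18

open PeriodPair WeierstrassCurve

variable (L : PeriodPair)

lemma wp_add_mem (z : ℂ) {l : ℂ} (hl : l ∈ L.lattice) : ℘[L] (z + l) = ℘[L] z :=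
  L.weierstrassP_add_coe z ⟨l, hl⟩

lemma dwp_add_mem (z : ℂ) {l : ℂ} (hl : l ∈ L.lattice) : ℘'[L] (z + l) = ℘'[L] z :=
  L.derivWeierstrassP_add_coe z ⟨l, hl⟩

lemma add_mem_iff_right (z : ℂ) {l : ℂ} (hl : l ∈ L.lattice) :
    z + l ∈ L.lattice ↔ z ∈ L.lattice :=
  ⟨fun h => by simpa using sub_mem h hl, fun h => add_mem h hl⟩

/-- `℘ z = ℘ w` iff `z ≡ ± w` modulo the lattice. -/
theorem wp_eq_iff {z w : ℂ} (hz : z ∉ L.lattice) (hw : w ∉ L.lattice) :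
    ℘[L] z = ℘[L] w ↔ z - w ∈ L.lattice ∨ z + w ∈ L.lattice := by
  constructor
  · intro h
    have e1 := L.derivWeierstrassP_sq z hz
    have e2 := L.derivWeierstrassP_sq w hw
    have hsq : (℘'[L] z - ℘'[L] w) * (℘'[L] z + ℘'[L] w) = 0 := by
      rw [h] at e1
      linear_combination e1 - e2
    rcases mul_eq_zero.mp hsq with h' | h'
    · exact Or.inl (sub_mem_lattice_of_wp_eq_of_dwp_eq L hz hw h (sub_eq_zero.mp h'))
    · right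
      have hnw : -w ∉ L.lattice := fun hm => hw (by simpa using neg_mem hm)
      have := sub_mem_lattice_of_wp_eq_of_dwp_eq L hz hnw (by rw [L.weierstrassP_neg]; exact h)
        (by rw [L.derivWeierstrassP_neg]; linear_combination h')
      simpa using this
  · rintro (h | h)
    · have : z = w + (z - w) := by ring
      rw [this, wp_add_mem L w h]
    · have : z = -w + (z + w) := by ring
      rw [this, wp_add_mem L (-w) h, L.weierstrassP_neg]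

/-- `℘'` vanishes at the half periods. -/
lemma dwp_eq_zero_of_two_mul_mem {h : ℂ} (h2 : 2 * h ∈ L.lattice) : ℘'[L] h = 0 := by
  have e : -h = h + -(2 * h) := by ring
  have h1 : ℘'[L] (-h) = ℘'[L] h := by
    rw [e]; exact dwp_add_mem L h (neg_mem h2)
  rw [L.derivWeierstrassP_neg] at h1
  have : (2 : ℂ) * ℘'[L] h = 0 := by linear_combination -h1
  exact (mul_eq_zero.mp this).resolve_left two_ne_zero

/-- Pure algebra: a cubic `4x³ - g₂ x - g₃` with three distinct roots has non-zero discriminant. -/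
lemma disc_alg {e₁ e₂ e₃ g₂ g₃ : ℂ} (h12 : e₁ ≠ e₂) (h13 : e₁ ≠ e₃) (h23 : e₂ ≠ e₃)
    (r1 : 4 * e₁ ^ 3 - g₂ * e₁ - g₃ = 0) (r2 : 4 * e₂ ^ 3 - g₂ * e₂ - g₃ = 0)
    (r3 : 4 * e₃ ^ 3 - g₂ * e₃ - g₃ = 0) : g₂ ^ 3 - 27 * g₃ ^ 2 ≠ 0 := by
  have a : (e₁ - e₂) * (4 * (e₁ ^ 2 + e₁ * e₂ + e₂ ^ 2) - g₂) = 0 := by linear_combination r1 - r2
  have a' := (mul_eq_zero.mp a).resolve_left (sub_ne_zero.mpr h12)
  have b : (e₁ - e₃) * (4 * (e₁ ^ 2 + e₁ * e₃ + e₃ ^ 2) - g₂) = 0 := by linear_combination r1 - r3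
  have b' := (mul_eq_zero.mp b).resolve_left (sub_ne_zero.mpr h13)
  have c : (e₂ - e₃) * (e₁ + e₂ + e₃) = 0 := by linear_combination (a' - b') / 4
  have hs := (mul_eq_zero.mp c).resolve_left (sub_ne_zero.mpr h23)
  have he₃ : e₃ = -e₁ - e₂ := by linear_combination hs
  have hg₂ : g₂ = 4 * (e₁ ^ 2 + e₁ * e₂ + e₂ ^ 2) := by linear_combination -a'
  have hg₃ : g₃ = 4 * e₁ ^ 3 - g₂ * e₁ := by linear_combination -r1
  have key : g₂ ^ 3 - 27 * g₃ ^ 2 = 16 * ((e₁ - e₂) * (e₁ - e₃) * (e₂ - e₃)) ^ 2 := by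
    rw [hg₃, hg₂, he₃]; ring
  rw [key]
  exact mul_ne_zero (by norm_num) (pow_ne_zero 2 (mul_ne_zero (mul_ne_zero (sub_ne_zero.mpr h12)
    (sub_ne_zero.mpr h13)) (sub_ne_zero.mpr h23)))

lemma half_notMem (a b : ℚ) (h : ¬ (a.den = 1 ∧ b.den = 1)) :
    (a : ℂ) * L.ω₁ + (b : ℂ) * L.ω₂ ∉ L.lattice :=
  (L.mul_ω₁_add_mul_ω₂_mem_lattice (α := a) (β := b)).not.mpr h

/-- The discriminant `g₂³ - 27 g₃²` of a period lattice does not vanish. -/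
theorem disc_ne_zero : L.g₂ ^ 3 - 27 * L.g₃ ^ 2 ≠ 0 := by
  set h₁ : ℂ := ((1 / 2 : ℚ) : ℂ) * L.ω₁ + ((0 : ℚ) : ℂ) * L.ω₂ with hh₁
  set h₂ : ℂ := ((0 : ℚ) : ℂ) * L.ω₁ + ((1 / 2 : ℚ) : ℂ) * L.ω₂ with hh₂
  set h₃ : ℂ := ((1 / 2 : ℚ) : ℂ) * L.ω₁ + ((1 / 2 : ℚ) : ℂ) * L.ω₂ with hh₃
  have n₁ : h₁ ∉ L.lattice := half_notMem L _ _ (by norm_num)
  have n₂ : h₂ ∉ L.lattice := half_notMem L _ _ (by norm_num)
  have n₃ : h₃ ∉ L.lattice := half_notMem L _ _ (by norm_num)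
  have t₁ : 2 * h₁ ∈ L.lattice := by
    have : 2 * h₁ = L.ω₁ := by rw [hh₁]; push_cast; ring
    rw [this]; exact L.ω₁_mem_lattice
  have t₂ : 2 * h₂ ∈ L.lattice := by
    have : 2 * h₂ = L.ω₂ := by rw [hh₂]; push_cast; ring
    rw [this]; exact L.ω₂_mem_lattice
  have t₃ : 2 * h₃ ∈ L.lattice := by
    have : 2 * h₃ = L.ω₁ + L.ω₂ := by rw [hh₃]; push_cast; ring
    rw [this]; exact add_mem L.ω₁_mem_lattice L.ω₂_mem_lattice
  have root : ∀ h : ℂ, h ∉ L.lattice → 2 * h ∈ L.lattice →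
      4 * ℘[L] h ^ 3 - L.g₂ * ℘[L] h - L.g₃ = 0 := by
    intro h hn ht
    have := L.derivWeierstrassP_sq h hn
    rw [dwp_eq_zero_of_two_mul_mem L ht] at this
    linear_combination -this
  -- the differences and sums of distinct half periods are not in the lattice
  have d12 : ℘[L] h₁ ≠ ℘[L] h₂ := by
    rw [Ne, wp_eq_iff L n₁ n₂, not_or]
    constructor
    · have : h₁ - h₂ = ((1 / 2 : ℚ) : ℂ) * L.ω₁ + ((-1 / 2 : ℚ) : ℂ) * L.ω₂ := by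
        rw [hh₁, hh₂]; push_cast; ring
      rw [this]; exact half_notMem L _ _ (by norm_num)
    · have : h₁ + h₂ = ((1 / 2 : ℚ) : ℂ) * L.ω₁ + ((1 / 2 : ℚ) : ℂ) * L.ω₂ := by
        rw [hh₁, hh₂]; push_cast; ring
      rw [this]; exact half_notMem L _ _ (by norm_num)
  have d13 : ℘[L] h₁ ≠ ℘[L] h₃ := by
    rw [Ne, wp_eq_iff L n₁ n₃, not_or]
    constructor
    · have : h₁ - h₃ = ((0 : ℚ) : ℂ) * L.ω₁ + ((-1 / 2 : ℚ) : ℂ) * L.ω₂ := by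
        rw [hh₁, hh₃]; push_cast; ring
      rw [this]; exact half_notMem L _ _ (by norm_num)
    · have : h₁ + h₃ = ((1 : ℚ) : ℂ) * L.ω₁ + ((1 / 2 : ℚ) : ℂ) * L.ω₂ := by
        rw [hh₁, hh₃]; push_cast; ring
      rw [this]; exact half_notMem L _ _ (by norm_num)
  have d23 : ℘[L] h₂ ≠ ℘[L] h₃ := by
    rw [Ne, wp_eq_iff L n₂ n₃, not_or]
    constructor
    · have : h₂ - h₃ = ((-1 / 2 : ℚ) : ℂ) * L.ω₁ + ((0 : ℚ) : ℂ) * L.ω₂ := by
        rw [hh₂, hh₃]; push_cast; ring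
      rw [this]; exact half_notMem L _ _ (by norm_num)
    · have : h₂ + h₃ = ((1 / 2 : ℚ) : ℂ) * L.ω₁ + ((1 : ℚ) : ℂ) * L.ω₂ := by
        rw [hh₂, hh₃]; push_cast; ring
      rw [this]; exact half_notMem L _ _ (by norm_num)
  exact disc_alg d12 d13 d23 (root h₁ n₁ t₁) (root h₂ n₂ t₂) (root h₃ n₃ t₃)

end Fermat.Agent.MAZ.Unif18
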