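/-
MAZ F-D1 / BR3 lattice-side assembly (helper18): for a curve `W` over `ℚ` and a point `Q` of odd prime
order `p` over `ℚbar` there is `τ ∈ ℍ` with `j(τ) = j(W)`,
`Δ(τ)/Δ(pτ) = ι (p¹² ∏ ψ₂(k•Q)⁴ / Δ_W^(p-1))` and `j(pτ) = ι (c₄'³/Δ')` where
`c₄' = (6-5p) c₄ + 5 Σ (12x+b₂)(k•Q)²`, `Δ' = Δ_W^p / ∏ ψ₂(k•Q)⁴` (products/sums over `1 ≤ k < p`).
Uses helper86's DELTA-QUOT and helper91's analytic Vélu formula for `g₂`.
-/
import Fermat.Agent.MAZ.Unif18.BridgeQbar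
import Fermat.Agent.MAZ.EF86.Uncond
import Fermat.Agent.MAZ.Unif91.VeluG2

set_option autoImplicit false

open Filter Topology UpperHalfPlane
open scoped PeriodPair

namespace Fermat.Agent.MAZ.Unif18

open PeriodPair WeierstrassCurve WeierstrassCurve.Affine
open Fermat.Agent.X0 Fermat.Agent.X0.LatticeEis

/-- Pure algebra: the modular unit. -/
lemma unit_alg {p : ℕ} (hp : 0 < p) {c u DL DL' dτ dpτ P twoπ : ℂ} (hc : c ≠ 0) (hu : u ≠ 0)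
    (hDL : DL ≠ 0) (hDL' : DL' ≠ 0) (hπ : twoπ ≠ 0) (hdpτ : dpτ ≠ 0)
    (hdq : DL' * P = DL ^ p)
    (h1 : DL = (u ^ 12)⁻¹ * (twoπ ^ 12 * dτ))
    (h2 : DL' = ((u / p) ^ 12)⁻¹ * (twoπ ^ 12 * dpτ)) :
    (p : ℂ) ^ 12 * (c ^ 12) ^ (p - 1) * P / (c ^ 12 * DL) ^ (p - 1) = dτ / dpτ := by
  have hp0 : (p : ℂ) ≠ 0 := Nat.cast_ne_zero.mpr hp.ne'
  have hP : P = DL ^ p / DL' := by
    field_simp
    linear_combination hdq
  have hpow : DL ^ p = DL ^ (p - 1) * DL := by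
    rw [← pow_succ, Nat.sub_add_cancel hp]
  rw [hP, hpow, mul_pow]
  have hne : DL ^ (p - 1) ≠ 0 := pow_ne_zero _ hDL
  have hce : (c ^ 12) ^ (p - 1) ≠ 0 := pow_ne_zero _ (pow_ne_zero _ hc)
  have key : (p : ℂ) ^ 12 * (c ^ 12) ^ (p - 1) * (DL ^ (p - 1) * DL / DL') /
      ((c ^ 12) ^ (p - 1) * DL ^ (p - 1)) = (p : ℂ) ^ 12 * DL / DL' := by
    field_simp
  rw [key, h1, h2]
  field_simp

/-- Pure algebra: the `j`-invariant of the isogenous lattice. -/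
lemma jisog_alg {p : ℕ} (hp : 0 < p) {c DL DL' g2 g2' S P : ℂ} (hc : c ≠ 0)
    (hDL' : DL' ≠ 0) (hP : P ≠ 0) (hdq : DL' * P = DL ^ p)
    (hg : g2' = (6 - 5 * (p : ℂ)) * g2 + 60 * S) :
    ((6 - 5 * (p : ℂ)) * (12 * c ^ 4 * g2) + 5 * (144 * c ^ 4 * S)) ^ 3 /
        ((c ^ 12 * DL) ^ p / ((c ^ 12) ^ (p - 1) * P)) = DL'⁻¹ * (12 * g2') ^ 3 := by
  have hce : (c ^ 12) ^ (p - 1) ≠ 0 := pow_ne_zero _ (pow_ne_zero _ hc)
  have hc12 : c ^ 12 ≠ 0 := pow_ne_zero _ hc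
  have hpow : (c ^ 12) ^ p = (c ^ 12) ^ (p - 1) * c ^ 12 := by
    rw [← pow_succ, Nat.sub_add_cancel hp]
  have hden : (c ^ 12 * DL) ^ p / ((c ^ 12) ^ (p - 1) * P) = c ^ 12 * DL' := by
    rw [mul_pow, ← hdq, hpow]
    field_simp
  rw [hden, hg]
  field_simp
  ring

open ModularForm in
/-- **Lattice-side assembly.** -/
theorem exists_tau_unit (W : WeierstrassCurve ℚ) (hΔ : W.Δ ≠ 0) {p : ℕ} (hp : p.Prime)
    (hp2 : p ≠ 2) (Q : (W⁄Kbar).Point) (hQ : addOrderOf Q = p) :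
    ∃ τ : ℍ, jFun τ = ((W.c₄ ^ 3 / W.Δ : ℚ) : ℂ) ∧
      discriminant τ / discriminant (natMulUHP p hp.pos τ) =
        iotaK ((p : Kbar) ^ 12 * (∏ k ∈ Finset.Ico 1 p, psi2 (W.baseChange Kbar) (k • Q) ^ 4) /
          (W.baseChange Kbar).Δ ^ (p - 1)) ∧
      jFun (natMulUHP p hp.pos τ) =
        iotaK (((6 - 5 * (p : Kbar)) * (W.baseChange Kbar).c₄ +
            5 * ∑ k ∈ Finset.Ico 1 p, x12 (W.baseChange Kbar) (k • Q) ^ 2) ^ 3 /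
          ((W.baseChange Kbar).Δ ^ p /
            ∏ k ∈ Finset.Ico 1 p, psi2 (W.baseChange Kbar) (k • Q) ^ 4)) := by
  obtain ⟨τ, u, hu, c, hc, hj, hD, hc4, hk⟩ := exists_tau_Qbar W hΔ hp Q hQ
  refine ⟨τ, hj, ?_⟩
  have hp0 : (p : ℂ) ≠ 0 := Nat.cast_ne_zero.mpr hp.ne_zero
  set L := scalePair u hu (pairOfUHP τ) with hL
  set L' := scalePair (u / p) (div_ne_zero hu (Nat.cast_ne_zero.mpr hp.pos.ne'))
    (pairOfUHP (natMulUHP p hp.pos τ)) with hL'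
  have hω₂ : L'.ω₂ = u / p := by
    simp only [hL', scalePair_ω₂, pairOfUHP_ω₂, mul_one]
  have h₁ : L'.ω₁ = L.ω₁ := by
    simp only [hL', hL, scalePair_ω₁, pairOfUHP_ω₁, coe_natMulUHP]
    field_simp
  have h₂ : L.ω₂ = (p : ℂ) * L'.ω₂ := by
    rw [hω₂]
    simp only [hL, scalePair_ω₂, pairOfUHP_ω₂, mul_one]
    field_simp
  have hcyc := EF86.isCyclicSup_of_basis L L' hp.pos h₁ h₂
  rw [hω₂] at hcyc
  obtain ⟨m, hm⟩ : ∃ m, p = 2 * m + 1 := by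
    rcases hp.eq_two_or_odd with h | h
    · exact absurd h hp2
    · exact ⟨p / 2, by omega⟩
  have hdq := hcyc.delta_quot_uncond hm
  have hmem : ∀ k ∈ Finset.Ico 1 p, ¬ p ∣ k := by
    intro k hk'
    rw [Finset.mem_Ico] at hk'
    exact Nat.not_dvd_of_pos_of_lt (by omega) hk'.2
  have ht : u / (p : ℂ) ∉ L.lattice := by
    have := (hk 1 (by
      intro h; exact hp.one_lt.ne' (Nat.dvd_one.mp h))).1
    simpa using this
  have hpt : (p : ℂ) * (u / p) ∈ L.lattice := by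
    have : (p : ℂ) * (u / p) = L.ω₂ := by
      simp only [hL, scalePair_ω₂, pairOfUHP_ω₂, mul_one]; field_simp
    rw [this]; exact L.ω₂_mem_lattice
  have hg2 := Unif91.g₂_sup hp ht hpt L' (lattice_sup_span τ u hu p hp.pos)
  have hd1 := disc_scalePair τ u hu
  have hd2 := disc_scalePair (natMulUHP p hp.pos τ) (u / p)
    (div_ne_zero hu (Nat.cast_ne_zero.mpr hp.pos.ne'))
  rw [← hL] at hd1
  rw [← hL'] at hd2
  have hDL : L.g₂ ^ 3 - 27 * L.g₃ ^ 2 ≠ 0 := disc_ne_zero L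
  have hDL' : L'.g₂ ^ 3 - 27 * L'.g₃ ^ 2 ≠ 0 := disc_ne_zero L'
  have hπ : (2 * (Real.pi : ℂ)) ≠ 0 :=
    mul_ne_zero two_ne_zero (Complex.ofReal_ne_zero.mpr Real.pi_ne_zero)
  have hdpτ : discriminant (natMulUHP p hp.pos τ) ≠ 0 := discriminant_ne_zero _
  -- images under `ι`
  have hιΔ : iotaK (W.baseChange Kbar).Δ = c ^ 12 * (L.g₂ ^ 3 - 27 * L.g₃ ^ 2) := by
    rw [← iotaAlg_apply, ← Δ_baseChange_C, Δ_baseChange_C', hD]
  have hιc₄ : iotaK (W.baseChange Kbar).c₄ = 12 * c ^ 4 * L.g₂ := by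
    rw [← iotaAlg_apply, ← c₄_baseChange_C, c₄_baseChange_C', hc4]
  have hιP : iotaK (∏ k ∈ Finset.Ico 1 p, psi2 (W.baseChange Kbar) (k • Q) ^ 4) =
      (c ^ 12) ^ (p - 1) * ∏ k ∈ Finset.Ico 1 p, ℘'[L] ((k : ℂ) * (u / p)) ^ 4 := by
    rw [map_prod]
    have : ∀ k ∈ Finset.Ico 1 p, iotaK (psi2 (W.baseChange Kbar) (k • Q) ^ 4) =
        c ^ 12 * ℘'[L] ((k : ℂ) * (u / p)) ^ 4 := by
      intro k hk'
      rw [map_pow, (hk k (hmem k hk')).2.1]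
      ring
    rw [Finset.prod_congr rfl this, Finset.prod_mul_distrib, Finset.prod_const, Nat.card_Ico]
  have hιS : iotaK (∑ k ∈ Finset.Ico 1 p, x12 (W.baseChange Kbar) (k • Q) ^ 2) =
      144 * c ^ 4 * ∑ k ∈ Finset.Ico 1 p, ℘[L] ((k : ℂ) * (u / p)) ^ 2 := by
    rw [map_sum, Finset.mul_sum]
    refine Finset.sum_congr rfl fun k hk' => ?_
    rw [map_pow, (hk k (hmem k hk')).2.2]
    ring
  have hP0 : (∏ k ∈ Finset.Ico 1 p, ℘'[L] ((k : ℂ) * (u / p)) ^ 4) ≠ 0 := by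
    intro h0
    rw [h0, mul_zero] at hdq
    exact pow_ne_zero p hDL hdq.symm
  constructor
  · rw [map_div₀, map_mul, map_pow, map_pow, map_natCast, hιΔ, hιP]
    have := unit_alg hp.pos hc hu hDL hDL' hπ hdpτ hdq hd1 hd2
    rw [← this]
    ring
  · simp only [map_div₀, map_pow, map_add, map_mul, map_sub, map_natCast, map_ofNat]
    rw [hιΔ, hιc₄, hιP, hιS]
    rw [← j_curve_scalePair (natMulUHP p hp.pos τ) (u / p)
      (div_ne_zero hu (Nat.cast_ne_zero.mpr hp.pos.ne')), ← hL', j_eq_inv_mul, curve_Δ, curve_c₄]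
    exact (jisog_alg hp.pos hc hDL' hP0 hdq hg2).symm

end Fermat.Agent.MAZ.Unif18
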