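/-
MAZ moduli side, link (2) AN-FINAL of report 1165 (helper18): the analytic input of the E3 chain in the
SHARED vocabulary `ModInv` (helper86) and `X0.Analytic.jdFun`, `DeltaMem19.deltaQuotInv`:

  `exists_tau_moduli` : for `V` over `ℚ` with `Δ ≠ 0` and `Q` of odd prime order `p` over `ℚbar`
  there is `τ ∈ ℍ` with `j(τ) = ι(j_V)`, `j(pτ) = ι(bq)`, `Δ(τ)/Δ(pτ) = ι(Uinv)`.

It is a restatement of `Unif18.exists_tau_unit`.
-/
import Fermat.Agent.MAZ.Unif18.Assembly
import Fermat.Agent.MAZ.EF86.ModInv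
import Fermat.Agent.RED.BASE.DeltaMem19

set_option autoImplicit false

open UpperHalfPlane

namespace Fermat.Agent.MAZ.Unif18

open WeierstrassCurve WeierstrassCurve.Affine
open Fermat.Agent.X0 Fermat.Agent.X0.Analytic
open Fermat.Agent.RED.BASE.DeltaMem19

/-- The two `ψ₂` agree. -/
theorem psi2_eq_modInv {F : Type*} [Field F] [DecidableEq F] (V : WeierstrassCurve F)
    (P : V.toAffine.Point) : psi2 V P = ModInv.psi2 V P := by
  cases P <;> rfl

/-- `12x + b₂` in terms of the shared `xco`, away from the origin. -/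
theorem x12_eq_modInv {F : Type*} [Field F] [DecidableEq F] [CharZero F] (V : WeierstrassCurve F)
    (P : V.toAffine.Point) (hP : P ≠ 0) :
    x12 V P = 12 * (ModInv.xco V P + V.b₂ / 12) := by
  cases P with
  | zero => exact absurd rfl hP
  | some x y h =>
    rw [x12_some, ModInv.xco_some]
    field_simp

theorem scaleH_eq_natMulUHP (p : ℕ) [NeZero p] (hp : 0 < p) (τ : ℍ) :
    scaleH p τ = natMulUHP p hp τ := by
  apply UpperHalfPlane.ext
  rw [coe_scaleH, coe_natMulUHP]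

/-- **AN-FINAL** (report 1165 (2)). -/
theorem exists_tau_moduli (V : WeierstrassCurve ℚ) (hΔ : V.Δ ≠ 0) {p : ℕ} [NeZero p]
    (hp : p.Prime) (hp2 : p ≠ 2) (Q : (V⁄Kbar).Point) (hQ : addOrderOf Q = p) :
    ∃ τ : ℍ, jFun τ = iotaK (algebraMap ℚ Kbar (V.c₄ ^ 3 / V.Δ)) ∧
      jdFun p τ = iotaK (ModInv.bq (V.baseChange Kbar) Q p) ∧
      deltaQuotInv p τ = iotaK (ModInv.Uinv (V.baseChange Kbar) Q p) := by
  obtain ⟨τ, hj, hU, hb⟩ := exists_tau_unit V hΔ hp hp2 Q hQ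
  have hk0 : ∀ k ∈ Finset.Ico 1 p, k • Q ≠ 0 := by
    intro k hk h0
    rw [Finset.mem_Ico] at hk
    have hdvd : addOrderOf Q ∣ k := addOrderOf_dvd_of_nsmul_eq_zero h0
    rw [hQ] at hdvd
    exact Nat.not_dvd_of_pos_of_lt (by omega) hk.2 hdvd
  have hprod : (∏ k ∈ Finset.Ico 1 p, psi2 (V.baseChange Kbar) (k • Q) ^ 4) =
      ModInv.psiProd (V.baseChange Kbar) Q p := by
    rw [ModInv.psiProd]
    exact Finset.prod_congr rfl fun k _ => by rw [psi2_eq_modInv]
  have hsum : (5 : Kbar) * ∑ k ∈ Finset.Ico 1 p, x12 (V.baseChange Kbar) (k • Q) ^ 2 =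
      720 * ∑ k ∈ Finset.Ico 1 p,
        (ModInv.xco (V.baseChange Kbar) (k • Q) + (V.baseChange Kbar).b₂ / 12) ^ 2 := by
    rw [Finset.mul_sum, Finset.mul_sum]
    refine Finset.sum_congr rfl fun k hk => ?_
    rw [x12_eq_modInv _ _ (hk0 k hk)]
    ring
  refine ⟨τ, ?_, ?_, ?_⟩
  · rw [hj, eq_ratCast, map_ratCast]
  · show jFun (scaleH p τ) = _
    rw [scaleH_eq_natMulUHP p hp.pos, hb, hprod, hsum]
    rfl
  · show ModularForm.discriminant τ / ModularForm.discriminant (scaleH p τ) = _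
    rw [scaleH_eq_natMulUHP p hp.pos, hU, hprod]
    rfl

end Fermat.Agent.MAZ.Unif18
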