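/-
MAZ F-D1 (helper18), U5b: the curve `E_L : y² = x³ - g₂/4 x - g₃/4` and the map
`toPoint : ℂ → E_L(ℂ)`, `z ↦ (℘ z, ℘' z / 2)` (`0` on the lattice); it is additive with kernel `L`.
-/
import Fermat.Agent.MAZ.Unif18.Curve

set_option autoImplicit false

open Filter Topology
open scoped PeriodPair

namespace Fermat.Agent.MAZ.Unif18

open PeriodPair WeierstrassCurve

variable (L : PeriodPair)

/-- The Weierstrass curve `y² = x³ - g₂/4 x - g₃/4` attached to a period lattice. -/
noncomputable def curve : WeierstrassCurve ℂ := ⟨0, 0, 0, -L.g₂ / 4, -L.g₃ / 4⟩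

@[simp] lemma curve_a₁ : (curve L).a₁ = 0 := rfl
@[simp] lemma curve_a₂ : (curve L).a₂ = 0 := rfl
@[simp] lemma curve_a₃ : (curve L).a₃ = 0 := rfl
@[simp] lemma curve_a₄ : (curve L).a₄ = -L.g₂ / 4 := rfl
@[simp] lemma curve_a₆ : (curve L).a₆ = -L.g₃ / 4 := rfl

lemma curve_Δ : (curve L).Δ = L.g₂ ^ 3 - 27 * L.g₃ ^ 2 := by
  simp only [WeierstrassCurve.Δ, WeierstrassCurve.b₂, WeierstrassCurve.b₄, WeierstrassCurve.b₆,
    WeierstrassCurve.b₈, curve_a₁, curve_a₂, curve_a₃, curve_a₄, curve_a₆]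
  ring

lemma curve_Δ_ne_zero : (curve L).Δ ≠ 0 := by
  rw [curve_Δ]; exact disc_ne_zero L

lemma curve_c₄ : (curve L).c₄ = 12 * L.g₂ := by
  simp only [WeierstrassCurve.c₄, WeierstrassCurve.b₂, WeierstrassCurve.b₄, curve_a₁, curve_a₂,
    curve_a₃, curve_a₄]
  ring

instance : (curve L).IsElliptic := ⟨by
  rw [isUnit_iff_ne_zero]; exact curve_Δ_ne_zero L⟩

lemma curve_equation_iff (x y : ℂ) :
    (curve L).toAffine.Equation x y ↔ y ^ 2 = x ^ 3 - L.g₂ / 4 * x - L.g₃ / 4 := by
  rw [Affine.equation_iff]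
  simp only [curve_a₁, curve_a₂, curve_a₃, curve_a₄, curve_a₆]
  constructor <;> intro h <;> linear_combination h

lemma curve_equation_wp {z : ℂ} (hz : z ∉ L.lattice) :
    (curve L).toAffine.Equation (℘[L] z) (℘'[L] z / 2) := by
  rw [curve_equation_iff]
  have := L.derivWeierstrassP_sq z hz
  linear_combination this / 4

lemma curve_nonsingular_wp {z : ℂ} (hz : z ∉ L.lattice) :
    (curve L).toAffine.Nonsingular (℘[L] z) (℘'[L] z / 2) :=
  ((curve L).toAffine.equation_iff_nonsingular_of_Δ_ne_zero (curve_Δ_ne_zero L)).mp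
    (curve_equation_wp L hz)

open Classical in
/-- The Weierstrass parametrisation `z ↦ (℘ z, ℘' z / 2)`. -/
noncomputable def toPoint (z : ℂ) : (curve L).toAffine.Point :=
  if hz : z ∈ L.lattice then 0 else .some (℘[L] z) (℘'[L] z / 2) (curve_nonsingular_wp L hz)

lemma toPoint_of_mem {z : ℂ} (hz : z ∈ L.lattice) : toPoint L z = 0 := by
  simp [toPoint, hz]

lemma toPoint_of_notMem {z : ℂ} (hz : z ∉ L.lattice) :
    toPoint L z = .some (℘[L] z) (℘'[L] z / 2) (curve_nonsingular_wp L hz) := by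
  simp [toPoint, hz]

lemma toPoint_eq_zero_iff {z : ℂ} : toPoint L z = 0 ↔ z ∈ L.lattice := by
  constructor
  · intro h
    by_contra hz
    rw [toPoint_of_notMem L hz] at h
    exact Affine.Point.some_ne_zero _ h
  · exact toPoint_of_mem L

lemma some_congr {W : Affine ℂ} {x x' y y' : ℂ} (hx : x = x') (hy : y = y')
    (h : W.Nonsingular x y) (h' : W.Nonsingular x' y') :
    Affine.Point.some x y h = Affine.Point.some x' y' h' := by
  subst hx hy; rfl

lemma toPoint_add_mem (z : ℂ) {l : ℂ} (hl : l ∈ L.lattice) : toPoint L (z + l) = toPoint L z := by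
  by_cases hz : z ∈ L.lattice
  · rw [toPoint_of_mem L hz, toPoint_of_mem L (add_mem hz hl)]
  · have hzl : z + l ∉ L.lattice := fun h => hz ((add_mem_iff_right L z hl).mp h)
    rw [toPoint_of_notMem L hz, toPoint_of_notMem L hzl]
    exact some_congr (wp_add_mem L z hl) (by rw [dwp_add_mem L z hl]) _ _

lemma toPoint_neg (z : ℂ) : toPoint L (-z) = -toPoint L z := by
  by_cases hz : z ∈ L.lattice
  · rw [toPoint_of_mem L hz, toPoint_of_mem L (neg_mem hz)]; rfl
  · have hnz : -z ∉ L.lattice := fun h => hz (by simpa using neg_mem h)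
    rw [toPoint_of_notMem L hz, toPoint_of_notMem L hnz, Affine.Point.neg_some]
    refine some_congr (L.weierstrassP_neg z) ?_ _ _
    simp only [Affine.negY, curve_a₁, curve_a₃, L.derivWeierstrassP_neg]
    ring

end Fermat.Agent.MAZ.Unif18
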