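/-
MAZ F-D1 (helper18), U5c: additivity of the Weierstrass parametrisation `toPoint`
(chord case from the addition theorem, doubling via a generic auxiliary point) and its kernel.
-/
import Fermat.Agent.MAZ.Unif18.ToPoint

set_option autoImplicit false

open Filter Topology
open scoped PeriodPair

namespace Fermat.Agent.MAZ.Unif18

open PeriodPair WeierstrassCurve

variable (L : PeriodPair)

lemma toPoint_add_of_ne {z w : ℂ} (hz : z ∉ L.lattice) (hw : w ∉ L.lattice)
    (hzw : z + w ∉ L.lattice) (hne : ℘[L] z ≠ ℘[L] w) :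
    toPoint L (z + w) = toPoint L z + toPoint L w := by
  rw [toPoint_of_notMem L hz, toPoint_of_notMem L hw, toPoint_of_notMem L hzw,
    Affine.Point.add_of_X_ne hne]
  have hd : ℘[L] z - ℘[L] w ≠ 0 := sub_ne_zero.mpr hne
  have e3 := wp_add L hz hw hzw hne
  have e4 := dwp_add L hz hw hzw hne
  refine some_congr ?_ ?_ _ _
  · rw [Affine.slope_of_X_ne hne, e3]
    simp only [Affine.addX, curve_a₁, curve_a₂]
    field_simp
    ring
  · rw [Affine.slope_of_X_ne hne, e4, e3]
    simp only [Affine.addY, Affine.negAddY, Affine.negY, Affine.addX, curve_a₁, curve_a₂, curve_a₃]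
    field_simp
    ring

lemma countable_half : {t : ℂ | 2 * t ∈ L.lattice}.Countable := by
  have : {t : ℂ | 2 * t ∈ L.lattice} = (fun l => l / 2) '' (L.lattice : Set ℂ) := by
    ext t
    simp only [Set.mem_ofPred_eq, Set.mem_image, SetLike.mem_coe]
    constructor
    · intro h; exact ⟨2 * t, h, by ring⟩
    · rintro ⟨l, hl, rfl⟩
      have : 2 * (l / 2) = l := by ring
      rw [this]; exact hl
  rw [this]
  exact (countable_lattice L).image _

lemma exists_generic (z : ℂ) : ∃ t : ℂ, t ∉ L.lattice ∧ 2 * t ∉ L.lattice ∧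
    t + z ∉ L.lattice ∧ t + -z ∉ L.lattice := by
  have hS : ((L.lattice : Set ℂ) ∪ {t : ℂ | 2 * t ∈ L.lattice} ∪ {t : ℂ | t + z ∈ L.lattice} ∪
      {t : ℂ | t + -z ∈ L.lattice}).Countable :=
    (((countable_lattice L).union (countable_half L)).union (countable_shift L z)).union
      (countable_shift L (-z))
  obtain ⟨t, ht⟩ := (hS.isConnected_compl_of_one_lt_rank
    (by simp only [Complex.rank_real_complex, Nat.one_lt_ofNat])).nonempty
  simp only [Set.mem_compl_iff, Set.mem_union, SetLike.mem_coe, Set.mem_ofPred_eq, not_or] at ht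
  exact ⟨t, ht.1.1.1, ht.1.1.2, ht.1.2, ht.2⟩

lemma toPoint_add_self {z : ℂ} (h2 : z + z ∉ L.lattice) :
    toPoint L (z + z) = toPoint L z + toPoint L z := by
  have hz : z ∉ L.lattice := fun h => h2 (add_mem h h)
  obtain ⟨t, ht, h2t, htz, htnz⟩ := exists_generic L z
  have hnt : -t ∉ L.lattice := fun h => ht (by simpa using neg_mem h)
  have hzt : z + t ∉ L.lattice := by rwa [add_comm]
  have hznt : z + -t ∉ L.lattice := by
    intro h
    apply htnz
    have := neg_mem h
    rwa [neg_add, neg_neg, add_comm] at this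
  have hne1 : ℘[L] z ≠ ℘[L] t := by
    rw [Ne, wp_eq_iff L hz ht, not_or]
    refine ⟨?_, hzt⟩
    rwa [sub_eq_add_neg]
  have hne2 : ℘[L] z ≠ ℘[L] (-t) := by rwa [L.weierstrassP_neg]
  have hsum : z + t + (z + -t) = z + z := by ring
  have hne3 : ℘[L] (z + t) ≠ ℘[L] (z + -t) := by
    rw [Ne, wp_eq_iff L hzt hznt, not_or]
    constructor
    · have : z + t - (z + -t) = 2 * t := by ring
      rwa [this]
    · rwa [hsum]
  have hA := toPoint_add_of_ne L hz ht hzt hne1
  have hB := toPoint_add_of_ne L hz hnt hznt hne2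
  have hC := toPoint_add_of_ne L hzt hznt (by rwa [hsum]) hne3
  rw [hsum] at hC
  rw [hC, hA, hB, toPoint_neg]
  abel

/-- The Weierstrass parametrisation is additive. -/
theorem toPoint_add (z w : ℂ) : toPoint L (z + w) = toPoint L z + toPoint L w := by
  by_cases hz : z ∈ L.lattice
  · rw [toPoint_of_mem L hz, zero_add, add_comm, toPoint_add_mem L w hz]
  by_cases hw : w ∈ L.lattice
  · rw [toPoint_of_mem L hw, add_zero, toPoint_add_mem L z hw]
  by_cases hzw : z + w ∈ L.lattice
  · rw [toPoint_of_mem L hzw]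
    have : w = -z + (z + w) := by ring
    rw [this, toPoint_add_mem L (-z) hzw, toPoint_neg, add_neg_cancel]
  by_cases hne : ℘[L] z = ℘[L] w
  · rcases (wp_eq_iff L hz hw).mp hne with h | h
    · have e1 : z = w + (z - w) := by ring
      have e2 : z + w = w + w + (z - w) := by ring
      have hww : w + w ∉ L.lattice := by
        intro h'
        apply hzw
        rw [e2]; exact add_mem h' h
      have hz' : toPoint L z = toPoint L w := by
        conv_lhs => rw [e1]
        exact toPoint_add_mem L w h
      rw [hz', e2, toPoint_add_mem L (w + w) h, toPoint_add_self L hww]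
    · exact absurd h hzw
  · exact toPoint_add_of_ne L hz hw hzw hne

/-- The Weierstrass parametrisation as a group homomorphism. -/
noncomputable def toPointHom : ℂ →+ (curve L).toAffine.Point :=
  AddMonoidHom.mk' (toPoint L) (toPoint_add L)

@[simp] lemma toPointHom_apply (z : ℂ) : toPointHom L z = toPoint L z := rfl

lemma toPointHom_ker : (toPointHom L).ker = L.lattice.toAddSubgroup := by
  ext z
  rw [AddMonoidHom.mem_ker, toPointHom_apply, toPoint_eq_zero_iff]
  rfl

end Fermat.Agent.MAZ.Unif18
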