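/-
MAZ F-D1 (helper18), U5d: the Weierstrass uniformisation
`unifEquiv L : ℂ ⧸ L.lattice.toAddSubgroup ≃+ E_L(ℂ)`, `z ↦ (℘ z, ℘' z / 2)`.
-/
import Fermat.Agent.MAZ.Unif18.AddHom
import Fermat.Agent.MAZ.Unif91.WPSurj

set_option autoImplicit false

open Filter Topology
open scoped PeriodPair

namespace Fermat.Agent.MAZ.Unif18

open PeriodPair WeierstrassCurve

variable (L : PeriodPair)

/-- Every affine point of `E_L` is of the form `(℘ z, ℘' z / 2)`. -/
theorem exists_toPoint_eq_some {x y : ℂ} (h : (curve L).toAffine.Nonsingular x y) :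
    ∃ z : ℂ, z ∉ L.lattice ∧ ℘[L] z = x ∧ ℘'[L] z / 2 = y := by
  obtain ⟨z, hz, hzx⟩ := Unif91.exists_wp_eq L x
  have heq := (curve_equation_iff L x y).mp h.1
  have e1 := L.derivWeierstrassP_sq z hz
  rw [hzx] at e1
  have hsq : (℘'[L] z / 2 - y) * (℘'[L] z / 2 + y) = 0 := by
    linear_combination e1 / 4 - heq
  rcases mul_eq_zero.mp hsq with h' | h'
  · exact ⟨z, hz, hzx, sub_eq_zero.mp h'⟩
  · refine ⟨-z, fun hm => hz (by simpa using neg_mem hm), by rw [L.weierstrassP_neg, hzx], ?_⟩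
    rw [L.derivWeierstrassP_neg]
    linear_combination -h'

theorem toPoint_surjective : Function.Surjective (toPoint L) := by
  rintro (_ | ⟨x, y, h⟩)
  · exact ⟨0, toPoint_of_mem L (zero_mem _)⟩
  · obtain ⟨z, hz, hx, hy⟩ := exists_toPoint_eq_some L h
    refine ⟨z, ?_⟩
    rw [toPoint_of_notMem L hz]
    exact some_congr hx hy _ _

/-- **Weierstrass uniformisation**: `ℂ/L ≃+ E_L(ℂ)`. -/
noncomputable def unifEquiv : ℂ ⧸ L.lattice.toAddSubgroup ≃+ (curve L).toAffine.Point :=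
  (QuotientAddGroup.quotientAddEquivOfEq (toPointHom_ker L).symm).trans
    (QuotientAddGroup.quotientKerEquivOfSurjective (toPointHom L) (toPoint_surjective L))

@[simp] lemma unifEquiv_mk (z : ℂ) :
    unifEquiv L (QuotientAddGroup.mk z) = toPoint L z := rfl

end Fermat.Agent.MAZ.Unif18
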