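/-
MAZ F-D1 (helper18), U6c/d: every elliptic curve `W` over `ℂ` with a point `Q` of prime order `p`
is uniformised by a lattice `u·(ℤτ + ℤ)` with `j(τ) = j(W)` such that `Q` corresponds to `u/p`.
-/
import Fermat.Agent.MAZ.Unif18.Unif
import Fermat.Agent.MAZ.Unif91.ExistsLattice
import Fermat.Agent.MAZ.Unif91.Level
import Fermat.Agent.S05.Transport

set_option autoImplicit false

open Filter Topology UpperHalfPlane
open scoped PeriodPair

namespace Fermat.Agent.MAZ.Unif18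

open PeriodPair WeierstrassCurve
open Fermat.Agent.X0 Fermat.Agent.X0.LatticeEis

/-! ### Dependence on the lattice only -/

lemma G_congr {L₁ L₂ : PeriodPair} (h : L₁.lattice = L₂.lattice) (n : ℕ) : L₁.G n = L₂.G n := by
  show (fun S : Submodule ℤ ℂ => ∑' l : S, ((l : ℂ) ^ n)⁻¹) L₁.lattice = _
  rw [h]
  rfl

lemma g₂_congr {L₁ L₂ : PeriodPair} (h : L₁.lattice = L₂.lattice) : L₁.g₂ = L₂.g₂ := by
  unfold PeriodPair.g₂; rw [G_congr h]

lemma g₃_congr {L₁ L₂ : PeriodPair} (h : L₁.lattice = L₂.lattice) : L₁.g₃ = L₂.g₃ := by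
  unfold PeriodPair.g₃; rw [G_congr h]

lemma wp_congr {L₁ L₂ : PeriodPair} (h : L₁.lattice = L₂.lattice) (z : ℂ) :
    ℘[L₁] z = ℘[L₂] z := by
  show (fun S : Submodule ℤ ℂ => ∑' l : S, (1 / (z - (l : ℂ)) ^ 2 - 1 / (l : ℂ) ^ 2)) L₁.lattice = _
  rw [h]
  rfl

lemma dwp_congr {L₁ L₂ : PeriodPair} (h : L₁.lattice = L₂.lattice) (z : ℂ) :
    ℘'[L₁] z = ℘'[L₂] z := by
  show (fun S : Submodule ℤ ℂ => -∑' l : S, 2 / (z - (l : ℂ)) ^ 3) L₁.lattice = _
  rw [h]
  rfl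

lemma curve_congr {L₁ L₂ : PeriodPair} (h : L₁.lattice = L₂.lattice) : curve L₁ = curve L₂ := by
  unfold curve; rw [g₂_congr h, g₃_congr h]

/-! ### The `j`-invariant of a lattice curve -/

open ModularForm EisensteinSeries in
/-- The `j`-invariant of the curve of the lattice `u·(ℤτ + ℤ)` is `j(τ)`. -/
lemma j_curve_scalePair (τ : ℍ) (u : ℂ) (hu : u ≠ 0) :
    (curve (scalePair u hu (pairOfUHP τ))).j = jFun τ := by
  set L := scalePair u hu (pairOfUHP τ) with hL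
  have hπ : (Real.pi : ℂ) ≠ 0 := Complex.ofReal_ne_zero.mpr Real.pi_ne_zero
  have h2 : L.g₂ = (u ^ 4)⁻¹ * (pairOfUHP τ).g₂ := g₂_scalePair u hu _
  have h3 : L.g₃ = (u ^ 6)⁻¹ * (pairOfUHP τ).g₃ := g₃_scalePair u hu _
  have e2 := Unif91.three_g₂_pairOfUHP τ
  have e3 := Unif91.twentyseven_g₃_pairOfUHP τ
  have hdisc := discriminant_eq_E₄_cube_sub_E₆_sq τ
  have hdne := discriminant_ne_zero τ
  have hΔ := curve_Δ_ne_zero L
  rw [WeierstrassCurve.j, Units.val_inv_eq_inv_val, coe_Δ', curve_c₄]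
  rw [curve_Δ] at hΔ ⊢
  have g2 : (pairOfUHP τ).g₂ = 4 / 3 * (Real.pi : ℂ) ^ 4 * E₄ τ := by linear_combination e2 / 3
  have g3 : (pairOfUHP τ).g₃ = 8 / 27 * (Real.pi : ℂ) ^ 6 * E₆ τ := by linear_combination e3 / 27
  have hE : E₄ τ ^ 3 - E₆ τ ^ 2 = 1728 * discriminant τ := by
    rw [hdisc]; ring
  have hkey : L.g₂ ^ 3 - 27 * L.g₃ ^ 2 =
      (u ^ 12)⁻¹ * (64 / 27 * (Real.pi : ℂ) ^ 12 * (1728 * discriminant τ)) := by
    rw [h2, h3, g2, g3, ← hE]
    field_simp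
    ring
  unfold jFun
  rw [hkey, h2, g2]
  field_simp
  ring

/-! ### General elliptic curves over `ℂ` -/

lemma j_eq_inv_mul (W : WeierstrassCurve ℂ) [W.IsElliptic] : W.j = (W.Δ)⁻¹ * W.c₄ ^ 3 := by
  rw [WeierstrassCurve.j, Units.val_inv_eq_inv_val, coe_Δ']

/-- Every elliptic curve over `ℂ` is a variable change of a lattice curve. -/
theorem exists_lattice_of_curve (W : WeierstrassCurve ℂ) [W.IsElliptic] :
    ∃ (L : PeriodPair) (C : VariableChange ℂ), curve L = C • W := by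
  haveI : Invertible (2 : ℂ) := invertibleOfNonzero two_ne_zero
  haveI : Invertible (3 : ℂ) := invertibleOfNonzero three_ne_zero
  set C := W.toShortNF with hC
  set W' := C • W with hW'
  have hs : W'.IsShortNF := W.toShortNF_spec
  have hΔ' : W'.Δ ≠ 0 := by
    rw [hW', variableChange_Δ]
    exact mul_ne_zero (pow_ne_zero _ (by simp)) (W.coe_Δ' ▸ W.Δ'.ne_zero)
  have hdisc : 4 * W'.a₄ ^ 3 + 27 * W'.a₆ ^ 2 ≠ 0 := by
    intro h0
    apply hΔ'
    simp only [WeierstrassCurve.Δ, WeierstrassCurve.b₂, WeierstrassCurve.b₄, WeierstrassCurve.b₆,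
      WeierstrassCurve.b₈, hs.a₁, hs.a₂, hs.a₃]
    linear_combination (-16) * h0
  obtain ⟨τ, u, hu, h2, h3, -⟩ := Unif91.exists_tau_scale W'.a₄ W'.a₆ hdisc
  refine ⟨scalePair u hu (pairOfUHP τ), C, ?_⟩
  ext
  · simp [curve]
  · simp [curve]
  · simp [curve]
  · simp only [curve, h2]; ring
  · simp only [curve, h3]; ring

open Fermat.Agent.S05.Transport in
/-- The transported parametrisation depends on the lattice only. -/
lemma pointEquiv_toPoint_congr {W : WeierstrassCurve ℂ} {C : VariableChange ℂ} {L₁ L₂ : PeriodPair}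
    (hl : L₁.lattice = L₂.lattice) (h₁ : curve L₁ = C • W) (h₂ : curve L₂ = C • W) (z : ℂ) :
    pointEquiv h₁ (toPoint L₁ z) = pointEquiv h₂ (toPoint L₂ z) := by
  by_cases hz : z ∈ L₁.lattice
  · rw [toPoint_of_mem L₁ hz, toPoint_of_mem L₂ (hl ▸ hz)]
    rfl
  · have hz' : z ∉ L₂.lattice := fun h => hz (hl ▸ h)
    rw [toPoint_of_notMem L₁ hz, toPoint_of_notMem L₂ hz', pointEquiv_some, pointEquiv_some]
    refine some_congr ?_ ?_ _ _
    · rw [wp_congr hl]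
    · rw [wp_congr hl, dwp_congr hl]

open Fermat.Agent.S05.Transport in
/-- **Uniformisation with level structure.** For an elliptic curve `W` over `ℂ` and a point `Q`
of prime order `p` there are `τ ∈ ℍ`, `u ≠ 0` and a variable change `C` such that `C • W` is the
curve of the lattice `L = u·(ℤτ + ℤ)`, `j(τ) = j(W)`, and `Q` is the image of `u/p` under
`ℂ → E_L(ℂ) ≃ W(ℂ)`. -/
theorem exists_tau (W : WeierstrassCurve ℂ) [W.IsElliptic] {p : ℕ} (hp : p.Prime)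
    (Q : W.toAffine.Point) (hQ : addOrderOf Q = p) :
    ∃ (τ : ℍ) (u : ℂ) (hu : u ≠ 0) (C : VariableChange ℂ)
      (h : curve (scalePair u hu (pairOfUHP τ)) = C • W),
      jFun τ = W.j ∧ pointEquiv h (toPoint (scalePair u hu (pairOfUHP τ)) (u / p)) = Q := by
  obtain ⟨L₀, C, h₀⟩ := exists_lattice_of_curve W
  set e₀ := pointEquiv h₀ with he₀
  obtain ⟨z₀, hz₀⟩ := toPoint_surjective L₀ (e₀.symm Q)
  have hQ0 : Q ≠ 0 := by
    intro h
    rw [h, addOrderOf_zero] at hQ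
    exact hp.ne_one hQ.symm
  have hz₀L : z₀ ∉ L₀.lattice := by
    intro hm
    apply hQ0
    have := toPoint_of_mem L₀ hm
    rw [hz₀] at this
    exact (AddEquiv.map_eq_zero_iff e₀.symm).mp this
  have hpz : (p : ℂ) * z₀ ∈ L₀.lattice := by
    rw [← toPoint_eq_zero_iff]
    have h1 : toPoint L₀ ((p : ℂ) * z₀) = p • toPoint L₀ z₀ := by
      have := map_nsmul (toPointHom L₀) p z₀
      simpa [nsmul_eq_mul] using this
    rw [h1, hz₀, ← map_nsmul, ← hQ, addOrderOf_nsmul_eq_zero, map_zero]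
  obtain ⟨L', hL', hω, him⟩ := Unif91.exists_basis_of_order L₀ hp hz₀L hpz
  have hu : L'.ω₂ ≠ 0 := Unif91.ω₂_ne_zero L'
  set τ : ℍ := ⟨L'.ω₁ / L'.ω₂, him⟩ with hτ
  set L := scalePair L'.ω₂ hu (pairOfUHP τ) with hL
  have hω₁ : L.ω₁ = L'.ω₁ := by
    simp only [hL, scalePair_ω₁, pairOfUHP_ω₁, hτ]
    show L'.ω₂ * (L'.ω₁ / L'.ω₂) = L'.ω₁
    field_simp
  have hω₂ : L.ω₂ = L'.ω₂ := by
    simp only [hL, scalePair_ω₂, pairOfUHP_ω₂, mul_one]
  have hLlat : L.lattice = L₀.lattice := by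
    rw [← hL']
    unfold PeriodPair.lattice
    rw [hω₁, hω₂]
  have h : curve L = C • W := (curve_congr hLlat).trans h₀
  refine ⟨τ, L'.ω₂, hu, C, h, ?_, ?_⟩
  · have hj : W.j = (C • W).j := (variableChange_j W C).symm
    rw [← j_curve_scalePair τ L'.ω₂ hu, hj, j_eq_inv_mul (curve _), j_eq_inv_mul (C • W), ← h]
  · rw [pointEquiv_toPoint_congr hLlat h h₀]
    have e : L'.ω₂ / p = z₀ + (L'.ω₂ / p - z₀) := by ring
    rw [e, toPoint_add_mem L₀ z₀ hω, hz₀, he₀]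
    exact AddEquiv.apply_symm_apply _ Q

end Fermat.Agent.MAZ.Unif18
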