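/-
MAZ F-D1 bridge (helper18), BR-a: transport of the multiples of `Q`, of `ψ₂ = 2y + a₁x + a₃` and of
`Δ` along the uniformisation of `exists_tau`.
-/
import Fermat.Agent.MAZ.Unif18.General

set_option autoImplicit false

open Filter Topology UpperHalfPlane
open scoped PeriodPair

namespace Fermat.Agent.MAZ.Unif18

open PeriodPair WeierstrassCurve
open Fermat.Agent.X0 Fermat.Agent.X0.LatticeEis
open Fermat.Agent.S05.Transport

/-- `ψ₂ = 2y + a₁x + a₃` on affine points (`0` at the origin). -/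
def psi2 {F : Type*} [Field F] (W : WeierstrassCurve F) : W.toAffine.Point → F
  | .zero => 0
  | .some x y _ => 2 * y + W.a₁ * x + W.a₃

@[simp] lemma psi2_zero {F : Type*} [Field F] (W : WeierstrassCurve F) :
    psi2 W (0 : W.toAffine.Point) = 0 := rfl

@[simp] lemma psi2_some {F : Type*} [Field F] (W : WeierstrassCurve F) {x y : F}
    (h : W.toAffine.Nonsingular x y) : psi2 W (.some x y h) = 2 * y + W.a₁ * x + W.a₃ := rfl

/-- `12x + b₂` on affine points (`0` at the origin): the translation-invariant `x`-coordinate. -/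
def x12 {F : Type*} [Field F] (W : WeierstrassCurve F) : W.toAffine.Point → F
  | .zero => 0
  | .some x _ _ => 12 * x + W.b₂

@[simp] lemma x12_zero {F : Type*} [Field F] (W : WeierstrassCurve F) :
    x12 W (0 : W.toAffine.Point) = 0 := rfl

@[simp] lemma x12_some {F : Type*} [Field F] (W : WeierstrassCurve F) {x y : F}
    (h : W.toAffine.Nonsingular x y) : x12 W (.some x y h) = 12 * x + W.b₂ := rfl

section

variable {W : WeierstrassCurve ℂ} {C : VariableChange ℂ} {L : PeriodPair}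

/-- `12x + b₂` of the image of `(℘ z, ℘' z / 2)` in `W` is `12 u² ℘ z`. -/
theorem x12_pointEquiv_toPoint (h : curve L = C • W) {z : ℂ} (hz : z ∉ L.lattice) :
    x12 W (pointEquiv h (toPoint L z)) = 12 * (C.u : ℂ) ^ 2 * ℘[L] z := by
  rw [toPoint_of_notMem L hz, pointEquiv_some, x12_some]
  have hu : (C.u : ℂ) ≠ 0 := C.u.ne_zero
  have h1 : (curve L).a₁ = (C • W).a₁ := by rw [h]
  have h2 : (curve L).a₂ = (C • W).a₂ := by rw [h]
  rw [curve_a₁, variableChange_a₁] at h1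
  rw [curve_a₂, variableChange_a₂] at h2
  simp only [vcX]
  have e1 : W.a₁ + 2 * C.s = 0 := by
    have := h1.symm
    rcases mul_eq_zero.mp this with h' | h'
    · exact absurd h' (by simp)
    · exact h'
  have e2 : W.a₂ - C.s * W.a₁ + 3 * C.r - C.s ^ 2 = 0 := by
    have := h2.symm
    rcases mul_eq_zero.mp this with h' | h'
    · exact absurd h' (by simp)
    · exact h'
  simp only [WeierstrassCurve.b₂]
  linear_combination 4 * e2 + (W.a₁ + 2 * C.s) * e1

/-- `c₄(W) = 12 u⁴ g₂`. -/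
theorem c₄_eq_of_curve_eq (h : curve L = C • W) : W.c₄ = 12 * (C.u : ℂ) ^ 4 * L.g₂ := by
  have hu : (C.u : ℂ) ≠ 0 := C.u.ne_zero
  have := congrArg WeierstrassCurve.c₄ h
  rw [curve_c₄, variableChange_c₄] at this
  simp only [Units.val_inv_eq_inv_val] at this
  field_simp at this
  linear_combination -this

/-- `ψ₂` of the image of `(℘ z, ℘' z / 2)` in `W` is `u³ ℘' z`. -/
theorem psi2_pointEquiv_toPoint (h : curve L = C • W) {z : ℂ} (hz : z ∉ L.lattice) :
    psi2 W (pointEquiv h (toPoint L z)) = (C.u : ℂ) ^ 3 * ℘'[L] z := by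
  rw [toPoint_of_notMem L hz, pointEquiv_some, psi2_some]
  have hu : (C.u : ℂ) ≠ 0 := C.u.ne_zero
  have h1 : (curve L).a₁ = (C • W).a₁ := by rw [h]
  have h3 : (curve L).a₃ = (C • W).a₃ := by rw [h]
  rw [curve_a₁, variableChange_a₁] at h1
  rw [curve_a₃, variableChange_a₃] at h3
  simp only [vcX, vcY]
  have e1 : W.a₁ + 2 * C.s = 0 := by
    have := h1.symm
    rcases mul_eq_zero.mp this with h' | h'
    · exact absurd h' (by simp)
    · exact h'
  have e3 : W.a₃ + C.r * W.a₁ + 2 * C.t = 0 := by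
    have := h3.symm
    rcases mul_eq_zero.mp this with h' | h'
    · exact absurd h' (by simp)
    · exact h'
  linear_combination (C.u : ℂ) ^ 2 * ℘[L] z * e1 + e3

/-- `Δ(W) = u¹² (g₂³ - 27 g₃²)`. -/
theorem Δ_eq_of_curve_eq (h : curve L = C • W) :
    W.Δ = (C.u : ℂ) ^ 12 * (L.g₂ ^ 3 - 27 * L.g₃ ^ 2) := by
  have hu : (C.u : ℂ) ≠ 0 := C.u.ne_zero
  have := congrArg WeierstrassCurve.Δ h
  rw [curve_Δ, variableChange_Δ] at this
  rw [this]
  simp only [Units.val_inv_eq_inv_val]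
  field_simp

/-- The multiples of the distinguished point. -/
theorem nsmul_eq_pointEquiv_toPoint (h : curve L = C • W) (t₀ : ℂ) (k : ℕ) :
    k • pointEquiv h (toPoint L t₀) = pointEquiv h (toPoint L (k * t₀)) := by
  rw [← map_nsmul]
  congr 1
  have := map_nsmul (toPointHom L) k t₀
  simpa [nsmul_eq_mul] using this.symm

/-- If `Q ↔ t₀` has exact order `p` then `k t₀ ∉ L` for `p ∤ k`. -/
theorem mul_notMem_of_addOrderOf (h : curve L = C • W) {t₀ : ℂ} {p : ℕ}
    (hQ : addOrderOf (pointEquiv h (toPoint L t₀)) = p) {k : ℕ} (hk : ¬ p ∣ k) :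
    (k : ℂ) * t₀ ∉ L.lattice := by
  intro hm
  apply hk
  rw [← hQ]
  apply addOrderOf_dvd_of_nsmul_eq_zero
  rw [nsmul_eq_pointEquiv_toPoint, toPoint_of_mem L hm, map_zero]

/-- `ψ₂(k • Q) = u³ ℘'(k t₀)`. -/
theorem psi2_nsmul (h : curve L = C • W) {t₀ : ℂ} {p : ℕ}
    (hQ : addOrderOf (pointEquiv h (toPoint L t₀)) = p) {k : ℕ} (hk : ¬ p ∣ k) :
    psi2 W (k • pointEquiv h (toPoint L t₀)) = (C.u : ℂ) ^ 3 * ℘'[L] (k * t₀) := by
  rw [nsmul_eq_pointEquiv_toPoint, psi2_pointEquiv_toPoint h (mul_notMem_of_addOrderOf h hQ hk)]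

/-- `(12x + b₂)(k • Q) = 12 u² ℘(k t₀)`. -/
theorem x12_nsmul (h : curve L = C • W) {t₀ : ℂ} {p : ℕ}
    (hQ : addOrderOf (pointEquiv h (toPoint L t₀)) = p) {k : ℕ} (hk : ¬ p ∣ k) :
    x12 W (k • pointEquiv h (toPoint L t₀)) = 12 * (C.u : ℂ) ^ 2 * ℘[L] (k * t₀) := by
  rw [nsmul_eq_pointEquiv_toPoint, x12_pointEquiv_toPoint h (mul_notMem_of_addOrderOf h hQ hk)]

end

end Fermat.Agent.MAZ.Unif18
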