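/-
MAZ F-D1 bridge (helper18), BR-b/BR-c: the discriminant of `u·(ℤτ + ℤ)` and the superlattice
`u·(ℤτ + ℤ) + ℤ·(u/p) = (u/p)·(ℤ(pτ) + ℤ)`.
-/
import Fermat.Agent.MAZ.Unif18.Bridge

set_option autoImplicit false

open Filter Topology UpperHalfPlane
open scoped PeriodPair

namespace Fermat.Agent.MAZ.Unif18

open PeriodPair WeierstrassCurve
open Fermat.Agent.X0 Fermat.Agent.X0.LatticeEis

open ModularForm EisensteinSeries in
/-- `Δ(u·(ℤτ + ℤ)) = (2π)¹² Δ(τ) / u¹²`. -/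
theorem disc_scalePair (τ : ℍ) (u : ℂ) (hu : u ≠ 0) :
    (scalePair u hu (pairOfUHP τ)).g₂ ^ 3 - 27 * (scalePair u hu (pairOfUHP τ)).g₃ ^ 2 =
      (u ^ 12)⁻¹ * ((2 * (Real.pi : ℂ)) ^ 12 * discriminant τ) := by
  have e2 := Unif91.three_g₂_pairOfUHP τ
  have e3 := Unif91.twentyseven_g₃_pairOfUHP τ
  have hdisc := discriminant_eq_E₄_cube_sub_E₆_sq τ
  have g2 : (pairOfUHP τ).g₂ = 4 / 3 * (Real.pi : ℂ) ^ 4 * E₄ τ := by linear_combination e2 / 3
  have g3 : (pairOfUHP τ).g₃ = 8 / 27 * (Real.pi : ℂ) ^ 6 * E₆ τ := by linear_combination e3 / 27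
  rw [g₂_scalePair, g₃_scalePair, g2, g3, hdisc]
  field_simp
  ring

/-- The point `n τ` of the upper half plane, `n > 0`. -/
def natMulUHP (n : ℕ) (hn : 0 < n) (τ : ℍ) : ℍ :=
  ⟨(n : ℂ) * τ, by
    have : ((n : ℂ) * (τ : ℂ)).im = n * τ.im := by simp
    rw [this]
    exact mul_pos (Nat.cast_pos.mpr hn) τ.im_pos⟩

@[simp] lemma coe_natMulUHP (n : ℕ) (hn : 0 < n) (τ : ℍ) :
    ((natMulUHP n hn τ : ℍ) : ℂ) = (n : ℂ) * τ := rfl

/-- `u·(ℤτ + ℤ) + ℤ·(u/p) = (u/p)·(ℤ(pτ) + ℤ)`. -/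
theorem lattice_sup_span (τ : ℍ) (u : ℂ) (hu : u ≠ 0) (p : ℕ) (hp : 0 < p) :
    (scalePair (u / p) (div_ne_zero hu (Nat.cast_ne_zero.mpr hp.ne'))
        (pairOfUHP (natMulUHP p hp τ))).lattice =
      (scalePair u hu (pairOfUHP τ)).lattice ⊔ Submodule.span ℤ {u / (p : ℂ)} := by
  have hp0 : (p : ℂ) ≠ 0 := Nat.cast_ne_zero.mpr hp.ne'
  set L' := scalePair (u / p) (div_ne_zero hu (Nat.cast_ne_zero.mpr hp.ne'))
    (pairOfUHP (natMulUHP p hp τ)) with hL'
  set L := scalePair u hu (pairOfUHP τ) with hL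
  have e1 : L'.ω₁ = u * (τ : ℂ) := by
    simp only [hL', scalePair_ω₁, pairOfUHP_ω₁, coe_natMulUHP]
    field_simp
  have e2 : L'.ω₂ = u / p := by
    simp only [hL', scalePair_ω₂, pairOfUHP_ω₂, mul_one]
  have f1 : L.ω₁ = u * (τ : ℂ) := by simp only [hL, scalePair_ω₁, pairOfUHP_ω₁]
  have f2 : L.ω₂ = u := by simp only [hL, scalePair_ω₂, pairOfUHP_ω₂, mul_one]
  apply le_antisymm
  · show Submodule.span ℤ {L'.ω₁, L'.ω₂} ≤ _
    rw [Submodule.span_le]
    intro x hx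
    simp only [Set.mem_insert_iff, Set.mem_singleton_iff] at hx
    rcases hx with hx | hx
    · rw [hx, e1, ← f1]
      exact Submodule.mem_sup_left L.ω₁_mem_lattice
    · rw [hx, e2]
      exact Submodule.mem_sup_right (Submodule.subset_span rfl)
  · apply sup_le
    · have h1 : u * (τ : ℂ) ∈ L'.lattice := by
        have := L'.ω₁_mem_lattice
        rwa [e1] at this
      have h2 : u ∈ L'.lattice := by
        have := Submodule.smul_mem L'.lattice (p : ℤ) L'.ω₂_mem_lattice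
        have e : (p : ℤ) • L'.ω₂ = u := by
          rw [e2]
          simp only [zsmul_eq_mul, Int.cast_natCast]
          field_simp
        rwa [e] at this
      show Submodule.span ℤ {L.ω₁, L.ω₂} ≤ _
      rw [Submodule.span_le]
      intro x hx
      simp only [Set.mem_insert_iff, Set.mem_singleton_iff] at hx
      rcases hx with hx | hx
      · rw [hx, f1]; exact h1
      · rw [hx, f2]; exact h2
    · rw [Submodule.span_le]
      intro x hx
      rw [Set.mem_singleton_iff] at hx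
      rw [hx, ← e2]
      exact L'.ω₂_mem_lattice

end Fermat.Agent.MAZ.Unif18
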