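/-
MAZ F-D1 bridge (helper18), BR-d: transport from `ℚbar` to `ℂ` along `iotaK`.
-/
import Fermat.Agent.MAZ.Unif18.BridgeLattice
import Fermat.Prelude.Def_EllipticCurve_ZeroComponentAt

set_option autoImplicit false

open Filter Topology UpperHalfPlane
open scoped PeriodPair

namespace Fermat.Agent.MAZ.Unif18

open PeriodPair WeierstrassCurve WeierstrassCurve.Affine
open Fermat.Agent.X0 Fermat.Agent.X0.LatticeEis

/-- The embedding `ℚbar → ℂ` of `X0.iotaK` as a `ℚ`-algebra homomorphism. -/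
noncomputable def iotaAlg : Kbar →ₐ[ℚ] ℂ :=
  haveI : Algebra.IsAlgebraic ℚ Kbar := AlgebraicClosure.isAlgebraic ℚ
  (IsAlgClosed.lift (R := ℚ) (M := ℂ) (S := Kbar) : Kbar →ₐ[ℚ] ℂ)

lemma iotaAlg_apply (x : Kbar) : iotaAlg x = iotaK x := rfl

variable (W : WeierstrassCurve ℚ)

/-- The map on points `W(ℚbar) → W(ℂ)`. -/
noncomputable def pointToC : (W⁄Kbar).Point →+ (W⁄ℂ).Point := Affine.Point.map iotaAlg

lemma pointToC_injective : Function.Injective (pointToC W) := Affine.Point.map_injective iotaAlg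

lemma pointToC_some {x y : Kbar} (h : (W⁄Kbar).Nonsingular x y) :
    pointToC W (Point.some x y h) =
      Point.some (iotaAlg x) (iotaAlg y)
        ((Affine.baseChange_nonsingular W.toAffine iotaAlg.injective ..).mpr h) := rfl

lemma addOrderOf_pointToC (Q : (W⁄Kbar).Point) : addOrderOf (pointToC W Q) = addOrderOf Q :=
  addOrderOf_injective (pointToC W) (pointToC_injective W) Q

lemma baseChange_a₁_C : (W.baseChange ℂ).a₁ = iotaAlg (W.baseChange Kbar).a₁ := by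
  show algebraMap ℚ ℂ W.a₁ = iotaAlg (algebraMap ℚ Kbar W.a₁)
  rw [AlgHom.commutes]

lemma baseChange_a₃_C : (W.baseChange ℂ).a₃ = iotaAlg (W.baseChange Kbar).a₃ := by
  show algebraMap ℚ ℂ W.a₃ = iotaAlg (algebraMap ℚ Kbar W.a₃)
  rw [AlgHom.commutes]

lemma psi2_pointToC (Q : (W⁄Kbar).Point) :
    psi2 (W.baseChange ℂ) (pointToC W Q) = iotaAlg (psi2 (W.baseChange Kbar) Q) := by
  rcases Q with _ | ⟨x, y, h⟩
  · show (0 : ℂ) = iotaAlg 0
    rw [map_zero]
  · rw [pointToC_some]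
    show 2 * iotaAlg y + (W.baseChange ℂ).a₁ * iotaAlg x + (W.baseChange ℂ).a₃ =
      iotaAlg (2 * y + (W.baseChange Kbar).a₁ * x + (W.baseChange Kbar).a₃)
    rw [baseChange_a₁_C, baseChange_a₃_C]
    simp only [map_add, map_mul, map_ofNat]

lemma Δ_baseChange_C : (W.baseChange ℂ).Δ = iotaAlg (W.baseChange Kbar).Δ := by
  show (W.map (algebraMap ℚ ℂ)).Δ = iotaAlg ((W.map (algebraMap ℚ Kbar)).Δ)
  rw [map_Δ, map_Δ, AlgHom.commutes]

lemma c₄_baseChange_C : (W.baseChange ℂ).c₄ = iotaAlg (W.baseChange Kbar).c₄ := by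
  show (W.map (algebraMap ℚ ℂ)).c₄ = iotaAlg ((W.map (algebraMap ℚ Kbar)).c₄)
  rw [map_c₄, map_c₄, AlgHom.commutes]

end Fermat.Agent.MAZ.Unif18
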