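/-
MAZ F-D1 bridge (helper18): the final export of F-D1 for a curve over `ℚ` and a point of prime order
over `ℚbar`: a point `τ ∈ ℍ` and a lattice `L = u·(ℤτ + ℤ)` realising `j`, `Δ`, `c₄`, and the values
`ψ₂(k•Q)`, `(12x + b₂)(k•Q)` as `c³ ℘'(k u/p)`, `12 c² ℘(k u/p)`.
-/
import Fermat.Agent.MAZ.Unif18.BridgeField

set_option autoImplicit false

open Filter Topology UpperHalfPlane
open scoped PeriodPair

namespace Fermat.Agent.MAZ.Unif18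

open PeriodPair WeierstrassCurve WeierstrassCurve.Affine
open Fermat.Agent.X0 Fermat.Agent.X0.LatticeEis
open Fermat.Agent.S05.Transport

variable (W : WeierstrassCurve ℚ)

lemma baseChange_b₂_C : (W.baseChange ℂ).b₂ = iotaAlg (W.baseChange Kbar).b₂ := by
  show (W.map (algebraMap ℚ ℂ)).b₂ = iotaAlg ((W.map (algebraMap ℚ Kbar)).b₂)
  rw [map_b₂, map_b₂, AlgHom.commutes]

lemma x12_pointToC (Q : (W⁄Kbar).Point) :
    x12 (W.baseChange ℂ) (pointToC W Q) = iotaAlg (x12 (W.baseChange Kbar) Q) := by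
  rcases Q with _ | ⟨x, y, h⟩
  · show (0 : ℂ) = iotaAlg 0
    rw [map_zero]
  · rw [pointToC_some]
    show 12 * iotaAlg x + (W.baseChange ℂ).b₂ = iotaAlg (12 * x + (W.baseChange Kbar).b₂)
    rw [baseChange_b₂_C]
    simp only [map_add, map_mul, map_ofNat]

lemma Δ_baseChange_C' : (W.baseChange ℂ).Δ = ((W.Δ : ℚ) : ℂ) := by
  show (W.map (algebraMap ℚ ℂ)).Δ = _
  rw [map_Δ]
  rfl

lemma c₄_baseChange_C' : (W.baseChange ℂ).c₄ = ((W.c₄ : ℚ) : ℂ) := by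
  show (W.map (algebraMap ℚ ℂ)).c₄ = _
  rw [map_c₄]
  rfl

lemma isElliptic_baseChange_C (hΔ : W.Δ ≠ 0) : (W.baseChange ℂ).IsElliptic := by
  refine ⟨?_⟩
  rw [isUnit_iff_ne_zero, Δ_baseChange_C']
  exact_mod_cast hΔ

/-- **F-D1, final form over `ℚbar`.** -/
theorem exists_tau_Qbar (hΔ : W.Δ ≠ 0) {p : ℕ} (hp : p.Prime) (Q : (W⁄Kbar).Point)
    (hQ : addOrderOf Q = p) :
    ∃ (τ : ℍ) (u : ℂ) (hu : u ≠ 0) (c : ℂ), c ≠ 0 ∧
      jFun τ = ((W.c₄ ^ 3 / W.Δ : ℚ) : ℂ) ∧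
      ((W.Δ : ℚ) : ℂ) = c ^ 12 * ((scalePair u hu (pairOfUHP τ)).g₂ ^ 3
        - 27 * (scalePair u hu (pairOfUHP τ)).g₃ ^ 2) ∧
      ((W.c₄ : ℚ) : ℂ) = 12 * c ^ 4 * (scalePair u hu (pairOfUHP τ)).g₂ ∧
      ∀ k : ℕ, ¬ p ∣ k → (k : ℂ) * (u / p) ∉ (scalePair u hu (pairOfUHP τ)).lattice ∧
        iotaK (psi2 (W.baseChange Kbar) (k • Q)) =
          c ^ 3 * ℘'[scalePair u hu (pairOfUHP τ)] (k * (u / p)) ∧
        iotaK (x12 (W.baseChange Kbar) (k • Q)) =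
          12 * c ^ 2 * ℘[scalePair u hu (pairOfUHP τ)] (k * (u / p)) := by
  haveI := isElliptic_baseChange_C W hΔ
  have hQC : addOrderOf (pointToC W Q) = p := by rw [addOrderOf_pointToC, hQ]
  obtain ⟨τ, u, hu, C, h, hj, hpt⟩ := exists_tau (W.baseChange ℂ) hp (pointToC W Q) hQC
  refine ⟨τ, u, hu, (C.u : ℂ), C.u.ne_zero, ?_, ?_, ?_, ?_⟩
  · rw [hj, j_eq_inv_mul, Δ_baseChange_C', c₄_baseChange_C']
    push_cast
    rw [div_eq_inv_mul]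
  · rw [← Δ_baseChange_C', Δ_eq_of_curve_eq h]
  · rw [← c₄_baseChange_C', c₄_eq_of_curve_eq h]
  · intro k hk
    have hQ' : addOrderOf (pointEquiv h (toPoint (scalePair u hu (pairOfUHP τ)) (u / p))) = p := by
      rw [hpt]; exact hQC
    refine ⟨mul_notMem_of_addOrderOf h hQ' hk, ?_, ?_⟩
    · rw [← iotaAlg_apply, ← psi2_pointToC, map_nsmul, ← hpt]
      exact psi2_nsmul h hQ' hk
    · rw [← iotaAlg_apply, ← x12_pointToC, map_nsmul, ← hpt]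
      exact x12_nsmul h hQ' hk

end Fermat.Agent.MAZ.Unif18
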